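import Mathlib

/-!
# Stalks at generizations (bridge lemmas for S26 / DIV, helper5416)

For `z ⤳ x` in a scheme `X`, the stalk `O_z` is the localization of `O_x` at the prime
`primeOfSpecializes h`, every prime of `O_x` arises in this way, and its height is the
coheight of `z`.
-/

open AlgebraicGeometry CategoryTheory TopologicalSpace Opposite

namespace Fermat.Agent.S26.DIV.Generization5416

universe u

/-- Pure algebra: if `S = R_p`, `T = R_q` and `S → T` is an `R`-algebra map, then `T` is the
localization of `S` at the prime of elements that do not become units in `T`. -/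
lemma isLocalization_atPrime_of_tower {R S T : Type*} [CommRing R] [CommRing S] [CommRing T]
    [Algebra R S] [Algebra R T] [Algebra S T] [IsScalarTower R S T]
    (p q : Ideal R) [p.IsPrime] [q.IsPrime] [IsLocalization.AtPrime S p]
    [IsLocalization.AtPrime T q]
    (P : Ideal S) [P.IsPrime] (hP : ∀ s : S, s ∈ P ↔ ¬ IsUnit (algebraMap S T s)) :
    IsLocalization.AtPrime T P := by
  have hunit : ∀ r : R, IsUnit (algebraMap R T r) ↔ r ∈ q.primeCompl :=
    fun r => IsLocalization.AtPrime.isUnit_to_map_iff T q r
  have hle : p.primeCompl ≤ q.primeCompl := by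
    intro r hr
    rw [← hunit, IsScalarTower.algebraMap_apply R S T]
    exact (IsLocalization.map_units S ⟨r, hr⟩).map _
  have h1 : IsLocalization (q.primeCompl.map (algebraMap R S)) T :=
    IsLocalization.isLocalization_of_submonoid_le S T p.primeCompl q.primeCompl hle
  refine IsLocalization.isLocalization_of_is_exists_mul_mem T
    (q.primeCompl.map (algebraMap R S)) P.primeCompl ?_ ?_
  · rintro _ ⟨r, hr, rfl⟩
    show algebraMap R S r ∉ P
    rw [hP, not_not, ← IsScalarTower.algebraMap_apply R S T]
    exact (hunit r).mpr hr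
  · rintro ⟨s, hs⟩
    have hs' : IsUnit (algebraMap S T s) := by
      by_contra hcon
      exact hs ((hP s).mpr hcon)
    obtain ⟨⟨r, m⟩, hrm⟩ := IsLocalization.surj p.primeCompl s
    refine ⟨algebraMap R S m, ?_⟩
    have hr : r ∈ q.primeCompl := by
      rw [← hunit, IsScalarTower.algebraMap_apply R S T, ← hrm, map_mul]
      exact hs'.mul ((IsLocalization.map_units S m).map _)
    exact ⟨r, hr, by rw [← hrm, mul_comm]⟩

variable {X : Scheme.{u}}

/-- The prime ideal of `O_x` corresponding to a generization `z` of `x`. -/
noncomputable def primeOfSpecializes {z x : X} (h : z ⤳ x) : Ideal (X.presheaf.stalk x) :=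
  (IsLocalRing.maximalIdeal (X.presheaf.stalk z)).comap (X.presheaf.stalkSpecializes h).hom

instance primeOfSpecializes_isPrime {z x : X} (h : z ⤳ x) : (primeOfSpecializes h).IsPrime :=
  Ideal.comap_isPrime _ _

lemma mem_primeOfSpecializes {z x : X} (h : z ⤳ x) (s : X.presheaf.stalk x) :
    s ∈ primeOfSpecializes h ↔ ¬ IsUnit (X.presheaf.stalkSpecializes h s) := by
  rw [primeOfSpecializes, Ideal.mem_comap, IsLocalRing.mem_maximalIdeal, mem_nonunits_iff]

/-- The stalk at a generization `z` of `x` is the localization of the stalk at `x` at the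
prime `primeOfSpecializes h`. -/
theorem isLocalization_stalkSpecializes {z x : X} (h : z ⤳ x) :
    @IsLocalization.AtPrime (X.presheaf.stalk x) _ (X.presheaf.stalk z) _
      (X.presheaf.stalkSpecializes h).hom.toAlgebra (primeOfSpecializes h) _ := by
  obtain ⟨_, ⟨U, hU, rfl⟩, hxU, -⟩ :=
    X.isBasis_affineOpens.exists_subset_of_mem_open (Set.mem_univ x) isOpen_univ
  have hzU : z ∈ U := h.mem_open U.isOpen hxU
  let _ := X.presheaf.algebra_section_stalk ⟨x, hxU⟩
  let _ := X.presheaf.algebra_section_stalk ⟨z, hzU⟩
  let _ : Algebra (X.presheaf.stalk x) (X.presheaf.stalk z) :=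
    (X.presheaf.stalkSpecializes h).hom.toAlgebra
  have : IsScalarTower Γ(X, U) (X.presheaf.stalk x) (X.presheaf.stalk z) := by
    apply IsScalarTower.of_algebraMap_eq'
    simp_rw [RingHom.algebraMap_toAlgebra]
    change _ = (X.presheaf.germ U x hxU ≫ _).hom
    rw [X.presheaf.germ_stalkSpecializes]
  have := hU.isLocalization_stalk ⟨x, hxU⟩
  have := hU.isLocalization_stalk ⟨z, hzU⟩
  exact isLocalization_atPrime_of_tower (hU.primeIdealOf ⟨x, hxU⟩).asIdeal
    (hU.primeIdealOf ⟨z, hzU⟩).asIdeal (primeOfSpecializes h) (mem_primeOfSpecializes h)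

/-- The point of `Spec O_x` given by `primeOfSpecializes h` is the image of the closed point of
`Spec O_z`. -/
lemma fromSpecStalk_primeOfSpecializes {z x : X} (h : z ⤳ x) :
    X.fromSpecStalk x ⟨primeOfSpecializes h, inferInstance⟩ = z := by
  have h1 : X.fromSpecStalk z (IsLocalRing.closedPoint (X.presheaf.stalk z)) = z :=
    Scheme.fromSpecStalk_closedPoint
  rw [← Scheme.SpecMap_stalkSpecializes_fromSpecStalk h] at h1
  exact h1

/-- Every prime of `O_x` is the prime of a (unique) generization of `x`. -/
theorem exists_specializes_primeOfSpecializes_eq (x : X) (P : Ideal (X.presheaf.stalk x))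
    [hP : P.IsPrime] : ∃ (z : X) (h : z ⤳ x), primeOfSpecializes h = P := by
  let p : Spec (X.presheaf.stalk x) := ⟨P, hP⟩
  have hz : X.fromSpecStalk x p ⤳ x := by
    have : X.fromSpecStalk x p ∈ Set.range (X.fromSpecStalk x) := ⟨p, rfl⟩
    rwa [Scheme.range_fromSpecStalk] at this
  refine ⟨X.fromSpecStalk x p, hz, ?_⟩
  have h2 := fromSpecStalk_primeOfSpecializes hz
  have h3 := (X.fromSpecStalk x).isEmbedding.injective h2
  exact congrArg PrimeSpectrum.asIdeal h3

/-- Generizations of `x` with the same prime in `O_x` are equal. -/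
lemma eq_of_primeOfSpecializes_eq {z z' x : X} (h : z ⤳ x) (h' : z' ⤳ x)
    (he : primeOfSpecializes h = primeOfSpecializes h') : z = z' := by
  rw [← fromSpecStalk_primeOfSpecializes h, ← fromSpecStalk_primeOfSpecializes h']
  congr 1
  exact PrimeSpectrum.ext he

/-- The height of the prime of a generization `z` is the coheight of `z`. -/
theorem height_primeOfSpecializes {z x : X} (h : z ⤳ x) :
    ((primeOfSpecializes h).height : WithBot ℕ∞) = Order.coheight z := by
  let _ : Algebra (X.presheaf.stalk x) (X.presheaf.stalk z) :=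
    (X.presheaf.stalkSpecializes h).hom.toAlgebra
  have := isLocalization_stalkSpecializes h
  rw [← IsLocalization.AtPrime.ringKrullDim_eq_height (primeOfSpecializes h)
    (X.presheaf.stalk z), ringKrullDim_stalk_eq_coheight]

lemma height_primeOfSpecializes_eq_one_iff {z x : X} (h : z ⤳ x) :
    (primeOfSpecializes h).height = 1 ↔ Order.coheight z = 1 := by
  have := height_primeOfSpecializes h
  constructor
  · intro h1
    rw [h1] at this
    exact_mod_cast this.symm
  · intro h1
    rw [h1] at this
    exact_mod_cast this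

end Fermat.Agent.S26.DIV.Generization5416
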