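import Fermat.Agent.S26.DIV.Bridge5416
import Fermat.Agent.S26.DIV.Generization5416

/-!
# Codimension-one points: Hartogs and DVRs at scheme level (S26 / DIV bridge, helper5416)
-/

open AlgebraicGeometry CategoryTheory TopologicalSpace Opposite

namespace Fermat.Agent.S26.DIV.Hartogs5416

open Fermat.Agent.S26.DIV.Bridge5416 Fermat.Agent.S26.DIV.Generization5416

universe u

variable {X : Scheme.{u}} [IsIntegral X]

/-- A rational function regular at a generization `z` of `x` is a fraction `a / s` of germs at
`x` with `s` not in the prime of `z`. -/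
lemma exists_fraction_of_mem_localRing {z x : X} (h : z ⤳ x) (f : X.functionField)
    (hf : f ∈ localRing X z) :
    ∃ a s : X.presheaf.stalk x, s ∉ primeOfSpecializes h ∧
      f * algebraMap (X.presheaf.stalk x) X.functionField s =
        algebraMap (X.presheaf.stalk x) X.functionField a := by
  obtain ⟨t, rfl⟩ := hf
  let _ : Algebra (X.presheaf.stalk x) (X.presheaf.stalk z) :=
    (X.presheaf.stalkSpecializes h).hom.toAlgebra
  have := isLocalization_stalkSpecializes h
  obtain ⟨⟨a, s⟩, has⟩ := IsLocalization.surj (primeOfSpecializes h).primeCompl t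
  refine ⟨a, s, s.2, ?_⟩
  have h1 : algebraMap (X.presheaf.stalk x) (X.presheaf.stalk z) (s : X.presheaf.stalk x) =
      X.presheaf.stalkSpecializes h (s : X.presheaf.stalk x) := rfl
  have h2 : algebraMap (X.presheaf.stalk x) (X.presheaf.stalk z) a =
      X.presheaf.stalkSpecializes h a := rfl
  rw [h1, h2] at has
  rw [← algebraMap_stalkSpecializes X h (s : X.presheaf.stalk x),
    ← algebraMap_stalkSpecializes X h a, ← map_mul, has]

/-- Scheme-level algebraic Hartogs (the ring-level statement, leaf `L2_hartogs` of the UFD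
package, is a hypothesis): on a normal locally noetherian integral scheme a rational function
regular at all codimension-one generizations of `x` is regular at `x`. -/
theorem mem_localRing_of_forall_coheight_one
    (hH : ∀ (R : Type u) [CommRing R] [IsDomain R] [IsNoetherianRing R] [IsIntegrallyClosed R]
      (F : Type u) [Field F] [Algebra R F] [IsFractionRing R F] (x : F),
      (∀ p : Ideal R, p.IsPrime → p.height = 1 →
        ∃ a s : R, s ∉ p ∧ x * algebraMap R F s = algebraMap R F a) →
      x ∈ (algebraMap R F).range)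
    [IsLocallyNoetherian X] (x : X) [IsIntegrallyClosed (X.presheaf.stalk x)]
    (f : X.functionField)
    (hf : ∀ z : X, z ⤳ x → Order.coheight z = 1 → f ∈ localRing X z) :
    f ∈ localRing X x := by
  refine hH (X.presheaf.stalk x) X.functionField f ?_
  intro p hp hp1
  obtain ⟨z, h, rfl⟩ := exists_specializes_primeOfSpecializes_eq x p
  exact exists_fraction_of_mem_localRing h f
    (hf z h ((height_primeOfSpecializes_eq_one_iff h).mp hp1))

/-- Unit version of Hartogs. -/
theorem mem_unitsAt_of_forall_coheight_one
    (hH : ∀ (R : Type u) [CommRing R] [IsDomain R] [IsNoetherianRing R] [IsIntegrallyClosed R]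
      (F : Type u) [Field F] [Algebra R F] [IsFractionRing R F] (x : F),
      (∀ p : Ideal R, p.IsPrime → p.height = 1 →
        ∃ a s : R, s ∉ p ∧ x * algebraMap R F s = algebraMap R F a) →
      x ∈ (algebraMap R F).range)
    [IsLocallyNoetherian X] (x : X) [IsIntegrallyClosed (X.presheaf.stalk x)]
    (u : X.functionFieldˣ)
    (hu : ∀ z : X, z ⤳ x → Order.coheight z = 1 → u ∈ unitsAt X z) :
    u ∈ unitsAt X x :=
  ⟨mem_localRing_of_forall_coheight_one hH x _ fun z hz hz1 => (hu z hz hz1).1,
    mem_localRing_of_forall_coheight_one hH x _ fun z hz hz1 => (hu z hz hz1).2⟩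

/-- On a normal locally noetherian integral scheme the stalk at a point of codimension one is a
discrete valuation ring. -/
theorem isDiscreteValuationRing_stalk [IsLocallyNoetherian X] (z : X)
    (hz : Order.coheight z = 1) [IsIntegrallyClosed (X.presheaf.stalk z)] :
    IsDiscreteValuationRing (X.presheaf.stalk z) := by
  have hdim : ringKrullDim (X.presheaf.stalk z) = 1 := by
    rw [ringKrullDim_stalk_eq_coheight, hz]; rfl
  have hnf : ¬ IsField (X.presheaf.stalk z) := by
    intro hF
    rw [ringKrullDim_eq_zero_of_isField hF] at hdim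
    exact zero_ne_one hdim
  have hK : Ring.KrullDimLE 1 (X.presheaf.stalk z) := by
    rw [Ring.krullDimLE_iff, hdim]; rfl
  have key : IsIntegrallyClosed (X.presheaf.stalk z) ∧
      ∃! P : Ideal (X.presheaf.stalk z), P ≠ ⊥ ∧ P.IsPrime := by
    refine ⟨inferInstance, IsLocalRing.maximalIdeal _, ⟨?_, inferInstance⟩, ?_⟩
    · exact fun h => hnf (IsLocalRing.isField_iff_maximalIdeal_eq.mpr h)
    · rintro P ⟨hP0, hP⟩
      exact IsLocalRing.eq_maximalIdeal (Ring.krullDimLE_one_iff_of_isPrime_bot.mp hK P hP0 hP)
  exact ((IsDiscreteValuationRing.TFAE (X.presheaf.stalk z) hnf).out 0 3).mpr key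

/-- At a codimension-one point with DVR stalk: regular iff the order of vanishing is `≥ 0`. -/
theorem mem_localRing_iff_ord_nonneg [IsLocallyNoetherian X] (z : X)
    (hz : Order.coheight z = 1) [IsDiscreteValuationRing (X.presheaf.stalk z)]
    (f : X.functionField) (hf : f ≠ 0) :
    f ∈ localRing X z ↔ 0 ≤ Scheme.ord f z := by
  rw [Scheme.le_ord_iff hz hf]
  have hord : Scheme.ordHom z hz f = Ring.ordFrac (X.presheaf.stalk z) f := rfl
  rw [hord, ofAdd_zero, WithZero.coe_one]
  constructor
  · rintro ⟨s, rfl⟩
    have hs : s ≠ 0 := by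
      rintro rfl
      exact hf (map_zero _)
    exact Ring.ordFrac_ge_one_of_ne_zero hs
  · intro h
    rw [Ring.ordFrac_eq_valuation_inv] at h
    have hv : (IsDiscreteValuationRing.maximalIdeal (X.presheaf.stalk z)).valuation
        X.functionField f ≠ 0 := by
      simpa using hf
    have h' : (IsDiscreteValuationRing.maximalIdeal (X.presheaf.stalk z)).valuation
        X.functionField f ≤ 1 := by
      rwa [one_le_inv₀ (zero_lt_iff.mpr hv)] at h
    obtain ⟨a, ha⟩ := IsDiscreteValuationRing.exists_lift_of_le_one h'
    exact ⟨a, ha⟩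

/-- At a codimension-one point with DVR stalk: unit iff the order of vanishing is `0`. -/
theorem mem_unitsAt_iff_ord_eq_zero [IsLocallyNoetherian X] (z : X)
    (hz : Order.coheight z = 1) [IsDiscreteValuationRing (X.presheaf.stalk z)]
    (u : X.functionFieldˣ) :
    u ∈ unitsAt X z ↔ Scheme.ord (u : X.functionField) z = 0 := by
  have hu : (u : X.functionField) ≠ 0 := u.ne_zero
  have hu' : ((u⁻¹ : X.functionFieldˣ) : X.functionField) ≠ 0 := (u⁻¹).ne_zero
  have hmul : Scheme.ord (u : X.functionField) z +
      Scheme.ord ((u⁻¹ : X.functionFieldˣ) : X.functionField) z = 0 := by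
    rw [← Scheme.ord_mul hu hu']
    have h1 : (u : X.functionField) * ((u⁻¹ : X.functionFieldˣ) : X.functionField) = 1 := by simp
    rw [h1]
    have h2 : Scheme.ord (1 : X.functionField) z + Scheme.ord (1 : X.functionField) z =
        Scheme.ord (1 : X.functionField) z := by
      rw [← Scheme.ord_mul one_ne_zero one_ne_zero, mul_one]
    linarith
  rw [mem_unitsAt_iff, mem_localRing_iff_ord_nonneg z hz _ hu,
    mem_localRing_iff_ord_nonneg z hz _ hu']
  constructor
  · rintro ⟨h1, h2⟩; linarith
  · intro h; rw [h] at hmul; constructor <;> linarith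

end Fermat.Agent.S26.DIV.Hartogs5416
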