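import Fermat.Agent.S26.Defs

/-!
# S26 / P5 DIV: core calculus for the lead's `Defs.lean` (helper6464)

Everything is stated for the frozen definitions `localRing`, `IsUnitAt`, `Fam`, `Fam.IsCartier`,
`Fam.Same`, `Fam.LinEquiv`, `Fam.LSet`, `pullFun`, `Fam.pullback`, `Fam.pullc`.
-/

set_option autoImplicit false

universe u

open CategoryTheory AlgebraicGeometry TopologicalSpace

namespace Fermat.Agent.S26.DIV.Core6464

open Fermat.Agent.S26

section LocalRing

variable {X : Scheme.{u}} [IsIntegral X]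

lemma algebraMap_stalk_eq (x : X) :
    algebraMap (X.presheaf.stalk x) X.functionField =
      (X.presheaf.stalkSpecializes ((genericPoint_spec X).specializes trivial)).hom := rfl

lemma algebraMap_stalkSpecializes {x y : X} (h : y ⤳ x) (a : X.presheaf.stalk x) :
    algebraMap (X.presheaf.stalk y) X.functionField (X.presheaf.stalkSpecializes h a) =
      algebraMap (X.presheaf.stalk x) X.functionField a := by
  rw [algebraMap_stalk_eq, algebraMap_stalk_eq]
  have := X.presheaf.stalkSpecializes_comp
    ((genericPoint_spec X).specializes (Set.mem_univ y)) h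
  exact congrArg (fun f => f.hom a) this

lemma algebraMap_stalk_injective (x : X) :
    Function.Injective (algebraMap (X.presheaf.stalk x) X.functionField) :=
  IsFractionRing.injective _ _

lemma mem_localRing_iff {x : X} {u : X.functionField} :
    u ∈ localRing X x ↔ ∃ a : X.presheaf.stalk x,
      algebraMap (X.presheaf.stalk x) X.functionField a = u := Iff.rfl

/-- local rings grow under generisation. -/
lemma localRing_mono {x y : X} (h : y ⤳ x) : localRing X x ≤ localRing X y := by
  rintro _ ⟨a, rfl⟩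
  exact ⟨X.presheaf.stalkSpecializes h a, algebraMap_stalkSpecializes h a⟩

/-- the local ring at the generic point is the whole function field. -/
lemma localRing_genericPoint : localRing X (genericPoint X) = ⊤ := by
  rw [eq_top_iff]
  intro u _
  refine ⟨u, ?_⟩
  rw [algebraMap_stalk_eq, X.presheaf.stalkSpecializes_refl]
  rfl

/-- the domain of definition of a rational function is open. -/
lemma isOpen_mem_localRing (u : X.functionField) : IsOpen {x : X | u ∈ localRing X x} := by
  rw [isOpen_iff_forall_mem_open]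
  rintro x ⟨a, ha⟩
  obtain ⟨U, hxU, s, hs⟩ := X.presheaf.exists_germ_eq a
  have hne : Nonempty U := ⟨⟨x, hxU⟩⟩
  refine ⟨U, fun y hy => ⟨X.presheaf.germ U y hy s, ?_⟩, U.isOpen, hxU⟩
  rw [Scheme.algebraMap_germ_eq_germToFunctionField, ← ha, ← hs,
    Scheme.algebraMap_germ_eq_germToFunctionField]

lemma isUnitAt_one (x : X) : IsUnitAt x (1 : X.functionField) :=
  ⟨Subring.one_mem _, by rw [inv_one]; exact Subring.one_mem _⟩

lemma isUnitAt_mul {x : X} {u v : X.functionField} (hu : IsUnitAt x u) (hv : IsUnitAt x v) :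
    IsUnitAt x (u * v) :=
  ⟨Subring.mul_mem _ hu.1 hv.1, by rw [mul_inv]; exact Subring.mul_mem _ hu.2 hv.2⟩

lemma isUnitAt_inv {x : X} {u : X.functionField} (hu : IsUnitAt x u) : IsUnitAt x u⁻¹ :=
  ⟨hu.2, by rw [inv_inv]; exact hu.1⟩

lemma isUnitAt_div {x : X} {u v : X.functionField} (hu : IsUnitAt x u) (hv : IsUnitAt x v) :
    IsUnitAt x (u / v) := by
  rw [div_eq_mul_inv]; exact isUnitAt_mul hu (isUnitAt_inv hv)

lemma isUnitAt_mono {x y : X} (h : y ⤳ x) {u : X.functionField} (hu : IsUnitAt x u) :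
    IsUnitAt y u :=
  ⟨localRing_mono h hu.1, localRing_mono h hu.2⟩

lemma isUnitAt_genericPoint (u : X.functionField) : IsUnitAt (genericPoint X) u := by
  constructor <;> rw [localRing_genericPoint] <;> trivial

/-- being a unit of the local ring is an open condition. -/
lemma isOpen_isUnitAt (u : X.functionField) : IsOpen {x : X | IsUnitAt x u} :=
  (isOpen_mem_localRing u).inter (isOpen_mem_localRing u⁻¹)

lemma isUnitAt_exists_opens {x : X} {u : X.functionField} (hu : IsUnitAt x u) :
    ∃ U : X.Opens, x ∈ U ∧ ∀ y ∈ U, IsUnitAt y u :=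
  ⟨⟨_, isOpen_isUnitAt u⟩, hu, fun _ hy => hy⟩

end LocalRing

section FamCalc

variable {X : Scheme.{u}} [IsIntegral X]

/-- `IsUnitAt` for units of the function field. -/
def UnitAt (x : X) (a : (X.functionField)ˣ) : Prop :=
  IsUnitAt x ((a : (X.functionField)ˣ) : X.functionField)

lemma unitAt_def (x : X) (a : (X.functionField)ˣ) :
    UnitAt x a ↔ IsUnitAt x ((a : (X.functionField)ˣ) : X.functionField) := Iff.rfl

lemma unitAt_one (x : X) : UnitAt x (1 : (X.functionField)ˣ) := by
  rw [unitAt_def, Units.val_one]; exact isUnitAt_one x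

lemma unitAt_mul {x : X} {a b : (X.functionField)ˣ} (ha : UnitAt x a) (hb : UnitAt x b) :
    UnitAt x (a * b) := by
  rw [unitAt_def, Units.val_mul]; exact isUnitAt_mul ha hb

lemma unitAt_inv {x : X} {a : (X.functionField)ˣ} (ha : UnitAt x a) : UnitAt x a⁻¹ := by
  rw [unitAt_def, Units.val_inv_eq_inv_val]; exact isUnitAt_inv ha

lemma unitAt_div {x : X} {a b : (X.functionField)ˣ} (ha : UnitAt x a) (hb : UnitAt x b) :
    UnitAt x (a / b) := by
  rw [div_eq_mul_inv]; exact unitAt_mul ha (unitAt_inv hb)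

lemma unitAt_pow {x : X} {a : (X.functionField)ˣ} (ha : UnitAt x a) (n : ℕ) :
    UnitAt x (a ^ n) := by
  induction n with
  | zero => rw [pow_zero]; exact unitAt_one x
  | succ n ih => rw [pow_succ]; exact unitAt_mul ih ha

lemma unitAt_mono {x y : X} (h : y ⤳ x) {a : (X.functionField)ˣ} (ha : UnitAt x a) :
    UnitAt y a := isUnitAt_mono h ha

lemma unitAt_exists_opens {x : X} {a : (X.functionField)ˣ} (ha : UnitAt x a) :
    ∃ U : X.Opens, x ∈ U ∧ ∀ y ∈ U, UnitAt y a := isUnitAt_exists_opens ha

lemma unitAt_genericPoint (a : (X.functionField)ˣ) : UnitAt (genericPoint X) a :=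
  isUnitAt_genericPoint _

lemma isCartier_iff {D : Fam X} :
    D.IsCartier ↔ ∀ x : X, ∃ U : X.Opens, x ∈ U ∧ ∀ y ∈ U, UnitAt y (D y / D x) := Iff.rfl

lemma same_iff {D D' : Fam X} : D.Same D' ↔ ∀ x, UnitAt x (D x / D' x) := Iff.rfl

lemma inSupp_iff {D : Fam X} {x : X} : D.InSupp x ↔ ¬ UnitAt x (D x) := Iff.rfl

lemma isCartier_one : (1 : Fam X).IsCartier := fun _ =>
  ⟨⊤, trivial, fun y _ => by
    show UnitAt y ((1 : Fam X) y / (1 : Fam X) _)
    simpa using unitAt_one y⟩

lemma isCartier_const (f : (X.functionField)ˣ) : (Fam.const f : Fam X).IsCartier := fun _ =>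
  ⟨⊤, trivial, fun y _ => by
    show UnitAt y (f / f)
    rw [div_self']; exact unitAt_one y⟩

lemma isCartier_mul {D D' : Fam X} (h : D.IsCartier) (h' : D'.IsCartier) :
    (D * D').IsCartier := by
  intro x
  obtain ⟨U, hxU, hU⟩ := h x
  obtain ⟨V, hxV, hV⟩ := h' x
  refine ⟨U ⊓ V, ⟨hxU, hxV⟩, fun y hy => ?_⟩
  have := unitAt_mul (hU y hy.1) (hV y hy.2)
  show UnitAt y ((D y * D' y) / (D x * D' x))
  rwa [div_mul_div_comm] at this

lemma isCartier_inv {D : Fam X} (h : D.IsCartier) : (D⁻¹).IsCartier := by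
  intro x
  obtain ⟨U, hxU, hU⟩ := h x
  refine ⟨U, hxU, fun y hy => ?_⟩
  have := unitAt_inv (hU y hy)
  show UnitAt y ((D y)⁻¹ / (D x)⁻¹)
  rwa [inv_div, ← inv_div_inv] at this

lemma isCartier_div {D D' : Fam X} (h : D.IsCartier) (h' : D'.IsCartier) :
    (D / D').IsCartier := by
  rw [div_eq_mul_inv]; exact isCartier_mul h (isCartier_inv h')

lemma isCartier_pow {D : Fam X} (h : D.IsCartier) (n : ℕ) : (D ^ n).IsCartier := by
  induction n with
  | zero => rw [pow_zero]; exact isCartier_one
  | succ n ih => rw [pow_succ]; exact isCartier_mul ih h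

/-- Key compatibility: the local equation at a specialisation is a local equation at the
generisation. -/
lemma unitAt_div_of_specializes {D : Fam X} (h : D.IsCartier) {x y : X} (hyx : y ⤳ x) :
    UnitAt y (D x / D y) := by
  obtain ⟨U, hxU, hU⟩ := h x
  have := unitAt_inv (hU y (hyx.mem_open U.isOpen hxU))
  rwa [inv_div] at this

/-- Cartier families from an arbitrary local equation `h` on a neighbourhood. -/
lemma isCartier_of_local {D : Fam X}
    (h : ∀ x : X, ∃ U : X.Opens, x ∈ U ∧ ∃ e : (X.functionField)ˣ, ∀ y ∈ U, UnitAt y (D y / e)) :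
    D.IsCartier := by
  intro x
  obtain ⟨U, hxU, e, hU⟩ := h x
  obtain ⟨V, hxV, hV⟩ := unitAt_exists_opens (hU x hxU)
  refine ⟨U ⊓ V, ⟨hxU, hxV⟩, fun y hy => ?_⟩
  have := unitAt_div (hU y hy.1) (hV y hy.2)
  show UnitAt y (D y / D x)
  rwa [div_div_div_cancel_right] at this

lemma same_refl (D : Fam X) : D.Same D := fun x => by
  show UnitAt x (D x / D x)
  rw [div_self']; exact unitAt_one x

lemma same_symm {D D' : Fam X} (h : D.Same D') : D'.Same D := fun x => by
  have := unitAt_inv (h x)
  show UnitAt x (D' x / D x)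
  rwa [inv_div] at this

lemma same_trans {D D' D'' : Fam X} (h : D.Same D') (h' : D'.Same D'') : D.Same D'' := fun x => by
  have := unitAt_mul (h x) (h' x)
  show UnitAt x (D x / D'' x)
  rwa [div_mul_div_cancel] at this

lemma same_mul {D₁ D₁' D₂ D₂' : Fam X} (h₁ : D₁.Same D₁') (h₂ : D₂.Same D₂') :
    (D₁ * D₂).Same (D₁' * D₂') := fun x => by
  have := unitAt_mul (h₁ x) (h₂ x)
  show UnitAt x ((D₁ x * D₂ x) / (D₁' x * D₂' x))
  rwa [div_mul_div_comm] at this

lemma same_inv {D D' : Fam X} (h : D.Same D') : (D⁻¹).Same (D'⁻¹) := fun x => by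
  have := unitAt_inv (h x)
  show UnitAt x ((D x)⁻¹ / (D' x)⁻¹)
  rwa [inv_div, ← inv_div_inv] at this

lemma same_pow {D D' : Fam X} (h : D.Same D') (n : ℕ) : (D ^ n).Same (D' ^ n) := by
  induction n with
  | zero => rw [pow_zero, pow_zero]; exact same_refl _
  | succ n ih => rw [pow_succ, pow_succ]; exact same_mul ih h

/-- a family that defines the same divisor as a Cartier family is Cartier. -/
lemma isCartier_of_same {D D' : Fam X} (h : D.Same D') (hD : D.IsCartier) : D'.IsCartier := by
  apply isCartier_of_local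
  intro x
  obtain ⟨U, hxU, hU⟩ := hD x
  refine ⟨U, hxU, D x, fun y hy => ?_⟩
  have := unitAt_mul (unitAt_inv (h y)) (hU y hy)
  rwa [inv_div, div_mul_div_cancel] at this

lemma linEquiv_iff {D D' : Fam X} :
    D.LinEquiv D' ↔ ∃ f : (X.functionField)ˣ, ∀ x, UnitAt x (D x / (D' x * f)) := Iff.rfl

lemma linEquiv_of_same {D D' : Fam X} (h : D.Same D') : D.LinEquiv D' :=
  ⟨1, fun x => by
    show UnitAt x (D x / (D' x * 1))
    rw [mul_one]; exact h x⟩

lemma linEquiv_refl (D : Fam X) : D.LinEquiv D := linEquiv_of_same (same_refl D)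

lemma linEquiv_symm {D D' : Fam X} (h : D.LinEquiv D') : D'.LinEquiv D := by
  obtain ⟨f, hf⟩ := linEquiv_iff.mp h
  refine linEquiv_iff.mpr ⟨f⁻¹, fun x => ?_⟩
  have := unitAt_inv (hf x)
  have e : (D x / (D' x * f))⁻¹ = D' x / (D x * f⁻¹) := by
    apply Units.ext
    simp only [Units.val_mul, Units.val_div_eq_div_val, Units.val_inv_eq_inv_val]
    field_simp
  rwa [e] at this

lemma linEquiv_trans {D D' D'' : Fam X} (h : D.LinEquiv D') (h' : D'.LinEquiv D'') :
    D.LinEquiv D'' := by
  obtain ⟨f, hf⟩ := linEquiv_iff.mp h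
  obtain ⟨f', hf'⟩ := linEquiv_iff.mp h'
  refine linEquiv_iff.mpr ⟨f' * f, fun x => ?_⟩
  have := unitAt_mul (hf x) (hf' x)
  have e : D x / (D' x * f) * (D' x / (D'' x * f')) = D x / (D'' x * (f' * f)) := by
    apply Units.ext
    simp only [Units.val_mul, Units.val_div_eq_div_val]
    field_simp
  rwa [e] at this

lemma linEquiv_mul {D₁ D₁' D₂ D₂' : Fam X} (h₁ : D₁.LinEquiv D₁') (h₂ : D₂.LinEquiv D₂') :
    (D₁ * D₂).LinEquiv (D₁' * D₂') := by
  obtain ⟨f, hf⟩ := linEquiv_iff.mp h₁
  obtain ⟨f', hf'⟩ := linEquiv_iff.mp h₂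
  refine linEquiv_iff.mpr ⟨f * f', fun x => ?_⟩
  have := unitAt_mul (hf x) (hf' x)
  have e : D₁ x / (D₁' x * f) * (D₂ x / (D₂' x * f')) =
      (D₁ x * D₂ x) / (D₁' x * D₂' x * (f * f')) := by
    apply Units.ext
    simp only [Units.val_mul, Units.val_div_eq_div_val]
    field_simp
  rw [e] at this
  exact this

lemma linEquiv_inv {D D' : Fam X} (h : D.LinEquiv D') : (D⁻¹).LinEquiv (D'⁻¹) := by
  obtain ⟨f, hf⟩ := linEquiv_iff.mp h
  refine linEquiv_iff.mpr ⟨f⁻¹, fun x => ?_⟩
  have := unitAt_inv (hf x)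
  have e : (D x / (D' x * f))⁻¹ = (D x)⁻¹ / ((D' x)⁻¹ * f⁻¹) := by
    apply Units.ext
    simp only [Units.val_mul, Units.val_div_eq_div_val, Units.val_inv_eq_inv_val]
    field_simp
  rw [e] at this
  exact this

lemma linEquiv_const (f : (X.functionField)ˣ) : (Fam.const f : Fam X).LinEquiv 1 :=
  linEquiv_iff.mpr ⟨f, fun x => by
    show UnitAt x (f / (1 * f))
    rw [one_mul, div_self']; exact unitAt_one x⟩

end FamCalc

section LSetCalc

variable {X : Scheme.{u}} [IsIntegral X]

lemma mem_LSet {D : Fam X} {f : X.functionField} :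
    f ∈ D.LSet ↔ ∀ x : X, f * ((D x : (X.functionField)ˣ) : X.functionField) ∈ localRing X x :=
  Iff.rfl

lemma LSet_subset_of_same {D D' : Fam X} (h : D.Same D') : D.LSet ⊆ D'.LSet := by
  intro f hf x
  have h1 : (((D' x / D x : (X.functionField)ˣ)) : X.functionField) ∈ localRing X x :=
    (same_symm h x).1
  have := Subring.mul_mem _ (hf x) h1
  rw [Units.val_div_eq_div_val] at this
  convert this using 1
  field_simp

/-- `L(D)` depends only on the divisor. -/
lemma LSet_congr {D D' : Fam X} (h : D.Same D') : D.LSet = D'.LSet :=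
  Set.Subset.antisymm (LSet_subset_of_same h) (LSet_subset_of_same (same_symm h))

lemma LSet_mul_mem {D D' : Fam X} {f f' : X.functionField} (hf : f ∈ D.LSet)
    (hf' : f' ∈ D'.LSet) : f * f' ∈ (D * D').LSet := by
  intro x
  have := Subring.mul_mem _ (hf x) (hf' x)
  show f * f' * (((D x * D' x : (X.functionField)ˣ)) : X.functionField) ∈ localRing X x
  rw [Units.val_mul]
  convert this using 1
  ring

lemma one_mem_LSet_iff {D : Fam X} : (1 : X.functionField) ∈ D.LSet ↔ D.IsEffective := by
  simp only [mem_LSet, one_mul]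
  rfl

lemma LSet_subset_mul_of_isEffective {D D' : Fam X} (h : D'.IsEffective) :
    D.LSet ⊆ (D * D').LSet := by
  intro f hf
  have := LSet_mul_mem hf (one_mem_LSet_iff.mpr h)
  rwa [mul_one] at this

/-- `D = D' + div u`  ⟹  `f ∈ L(D) ↔ f u ∈ L(D')`. -/
lemma mem_LSet_of_linEquiv {D D' : Fam X} (u : (X.functionField)ˣ)
    (h : D.Same (D' * Fam.const u)) (f : X.functionField) :
    f ∈ D.LSet ↔ f * (u : X.functionField) ∈ D'.LSet := by
  rw [LSet_congr h]
  simp only [mem_LSet]
  refine forall_congr' fun x => ?_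
  show f * (((D' x * u : (X.functionField)ˣ)) : X.functionField) ∈ localRing X x ↔ _
  rw [Units.val_mul]
  constructor <;> intro hx <;> convert hx using 1 <;> ring

/-- integral closedness of `L`: the hypothesis INT of VOLALG, from normality of the local
rings. -/
lemma LSet_int (hO : ∀ (x : X) (y : X.functionField), IsIntegral (localRing X x) y →
      y ∈ localRing X x)
    (D : Fam X) (k m : ℕ) (c : ℕ → X.functionField) (y : X.functionField)
    (hc : ∀ i, i < m → c i ∈ (D ^ ((m - i) * k)).LSet)
    (hy : y ^ m + ∑ i ∈ Finset.range m, c i * y ^ i = 0) :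
    y ∈ (D ^ k).LSet := by
  intro x
  apply hO
  set d : X.functionField := ((D x : (X.functionField)ˣ) : X.functionField) with hd
  have hd0 : d ≠ 0 := Units.ne_zero _
  have hdk : ((((D ^ k) x : (X.functionField)ˣ)) : X.functionField) = d ^ k := by
    simp [hd]
  rw [hdk]
  -- coefficients c i * d^((m-i)k) in the local ring
  have hcoef : ∀ i, i < m → c i * d ^ ((m - i) * k) ∈ localRing X x := by
    intro i hi
    have := hc i hi x
    have e : ((((D ^ ((m - i) * k)) x : (X.functionField)ˣ)) : X.functionField) =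
        d ^ ((m - i) * k) := by simp [hd]
    rwa [e] at this
  -- the monic polynomial
  let R := localRing X x
  let p : Polynomial R := Polynomial.X ^ m +
    ∑ i ∈ Finset.range m, Polynomial.C (if hi : i < m then
      (⟨c i * d ^ ((m - i) * k), hcoef i hi⟩ : R) else 0) * Polynomial.X ^ i
  refine ⟨p, ?_, ?_⟩
  · apply Polynomial.monic_X_pow_add
    refine (Polynomial.degree_sum_le _ _).trans_lt ?_
    rw [Finset.sup_lt_iff (by exact WithBot.bot_lt_coe m)]
    intro i hi
    refine (Polynomial.degree_C_mul_X_pow_le _ _).trans_lt ?_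
    exact_mod_cast Finset.mem_range.mp hi
  · simp only [p, Polynomial.eval₂_add, Polynomial.eval₂_pow, Polynomial.eval₂_X,
      Polynomial.eval₂_finsetSum, Polynomial.eval₂_mul, Polynomial.eval₂_C]
    have hsum : ∑ i ∈ Finset.range m,
        (algebraMap R X.functionField) (if hi : i < m then
          (⟨c i * d ^ ((m - i) * k), hcoef i hi⟩ : R) else 0) * (y * d ^ k) ^ i =
        d ^ (m * k) * ∑ i ∈ Finset.range m, c i * y ^ i := by
      rw [Finset.mul_sum]
      refine Finset.sum_congr rfl fun i hi => ?_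
      have hi' : i < m := Finset.mem_range.mp hi
      rw [dif_pos hi']
      show c i * d ^ ((m - i) * k) * (y * d ^ k) ^ i = _
      have : m * k = (m - i) * k + i * k := by
        rw [← add_mul, Nat.sub_add_cancel hi'.le]
      rw [this, mul_pow, pow_add, ← pow_mul, mul_comm k i]
      ring
    rw [hsum]
    have : (y * d ^ k) ^ m + d ^ (m * k) * ∑ i ∈ Finset.range m, c i * y ^ i =
        d ^ (m * k) * (y ^ m + ∑ i ∈ Finset.range m, c i * y ^ i) := by
      rw [mul_pow, ← pow_mul, mul_comm k m]; ring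
    rw [this, hy, mul_zero]

end LSetCalc

section PullFun

variable {X Y : Scheme.{u}} [IsIntegral X] [IsIntegral Y] (φ : Y ⟶ X)

omit [IsIntegral X] in
lemma map_specializes_genericPoint (y : Y) : φ.base (genericPoint Y) ⤳ φ.base y :=
  φ.base.hom.map_specializes ((genericPoint_spec Y).specializes (Set.mem_univ y))

/-- the basic formula: `pullFun` on the local ring at `φ y` is the stalk map at `y`. -/
lemma pullFun_algebraMap (y : Y) (a : X.presheaf.stalk (φ.base y)) :
    pullFun φ (algebraMap (X.presheaf.stalk (φ.base y)) X.functionField a) =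
      algebraMap (Y.presheaf.stalk y) Y.functionField (φ.stalkMap y a) := by
  have hsp := map_specializes_genericPoint φ y
  have hmem : algebraMap (X.presheaf.stalk (φ.base y)) X.functionField a ∈
      localRing X (φ.base (genericPoint Y)) := localRing_mono hsp ⟨a, rfl⟩
  unfold pullFun
  rw [dif_pos hmem]
  have hc := Classical.choose_spec hmem
  have : Classical.choose hmem = X.presheaf.stalkSpecializes hsp a := by
    apply algebraMap_stalk_injective
    rw [hc, algebraMap_stalkSpecializes]
  rw [this, algebraMap_stalk_eq]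
  exact Scheme.Hom.stalkSpecializes_stalkMap_apply φ (genericPoint Y) y
    ((genericPoint_spec Y).specializes (Set.mem_univ y)) a

lemma pullFun_mem_localRing (y : Y) {u : X.functionField} (hu : u ∈ localRing X (φ.base y)) :
    pullFun φ u ∈ localRing Y y := by
  obtain ⟨a, rfl⟩ := hu
  exact ⟨φ.stalkMap y a, (pullFun_algebraMap φ y a).symm⟩

lemma pullFun_one : pullFun φ (1 : X.functionField) = 1 := by
  have := pullFun_algebraMap φ (genericPoint Y) 1
  rwa [map_one, map_one, map_one] at this

lemma pullFun_mul {u v : X.functionField} (hu : u ∈ localRing X (φ.base (genericPoint Y)))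
    (hv : v ∈ localRing X (φ.base (genericPoint Y))) :
    pullFun φ (u * v) = pullFun φ u * pullFun φ v := by
  obtain ⟨a, rfl⟩ := hu
  obtain ⟨b, rfl⟩ := hv
  rw [← map_mul, pullFun_algebraMap, pullFun_algebraMap, pullFun_algebraMap, map_mul, map_mul]

lemma pullFun_add {u v : X.functionField} (hu : u ∈ localRing X (φ.base (genericPoint Y)))
    (hv : v ∈ localRing X (φ.base (genericPoint Y))) :
    pullFun φ (u + v) = pullFun φ u + pullFun φ v := by
  obtain ⟨a, rfl⟩ := hu
  obtain ⟨b, rfl⟩ := hv
  rw [← map_add, pullFun_algebraMap, pullFun_algebraMap, pullFun_algebraMap, map_add, map_add]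

lemma pullFun_zero : pullFun φ (0 : X.functionField) = 0 := by
  have := pullFun_algebraMap φ (genericPoint Y) 0
  rwa [map_zero, map_zero, map_zero] at this

lemma pullFun_mul_inv {u : X.functionField} (hu0 : u ≠ 0)
    (hu : IsUnitAt (φ.base (genericPoint Y)) u) :
    pullFun φ u * pullFun φ u⁻¹ = 1 := by
  rw [← pullFun_mul φ hu.1 hu.2, mul_inv_cancel₀ hu0, pullFun_one]

lemma pullFun_ne_zero {u : X.functionField} (hu0 : u ≠ 0)
    (hu : IsUnitAt (φ.base (genericPoint Y)) u) : pullFun φ u ≠ 0 := by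
  intro h
  have := pullFun_mul_inv φ hu0 hu
  rw [h, zero_mul] at this
  exact zero_ne_one this

lemma pullFun_inv {u : X.functionField} (hu0 : u ≠ 0)
    (hu : IsUnitAt (φ.base (genericPoint Y)) u) : pullFun φ u⁻¹ = (pullFun φ u)⁻¹ :=
  eq_inv_of_mul_eq_one_right (pullFun_mul_inv φ hu0 hu)

/-- units of the local ring at `φ y` pull back to units of the local ring at `y`. -/
lemma isUnitAt_pullFun (y : Y) {u : X.functionField} (hu0 : u ≠ 0)
    (hu : IsUnitAt (φ.base y) u) : IsUnitAt y (pullFun φ u) := by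
  refine ⟨pullFun_mem_localRing φ y hu.1, ?_⟩
  rw [← pullFun_inv φ hu0 (isUnitAt_mono (map_specializes_genericPoint φ y) hu)]
  exact pullFun_mem_localRing φ y hu.2

end PullFun

section PullU

variable {X Y : Scheme.{u}} [IsIntegral X] [IsIntegral Y] (φ : Y ⟶ X)

lemma toUnit_val {F : Type u} [Field F] {v : F} (hv : v ≠ 0) :
    ((toUnit v : Fˣ) : F) = v := by
  unfold toUnit; rw [dif_neg hv]; rfl

/-- pullback of a nonzero rational function, as a unit (junk `1` if it is not a unit at the
image of the generic point). -/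
noncomputable def pullU (a : (X.functionField)ˣ) : (Y.functionField)ˣ :=
  toUnit (pullFun φ ((a : (X.functionField)ˣ) : X.functionField))

lemma pullback_apply (D : Fam X) (y : Y) : Fam.pullback φ D y = pullU φ (D (φ.base y)) := rfl

lemma pullU_val {a : (X.functionField)ˣ} (ha : UnitAt (φ.base (genericPoint Y)) a) :
    ((pullU φ a : (Y.functionField)ˣ) : Y.functionField) =
      pullFun φ ((a : (X.functionField)ˣ) : X.functionField) :=
  toUnit_val (pullFun_ne_zero φ (Units.ne_zero _) ha)

lemma pullU_one : pullU φ (1 : (X.functionField)ˣ) = 1 := by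
  apply Units.ext
  rw [pullU_val φ (unitAt_one _), Units.val_one, Units.val_one, pullFun_one]

lemma pullU_mul {a b : (X.functionField)ˣ} (ha : UnitAt (φ.base (genericPoint Y)) a)
    (hb : UnitAt (φ.base (genericPoint Y)) b) : pullU φ (a * b) = pullU φ a * pullU φ b := by
  apply Units.ext
  rw [pullU_val φ (unitAt_mul ha hb), Units.val_mul, Units.val_mul, pullU_val φ ha,
    pullU_val φ hb, pullFun_mul φ ha.1 hb.1]

lemma pullU_inv {a : (X.functionField)ˣ} (ha : UnitAt (φ.base (genericPoint Y)) a) :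
    pullU φ a⁻¹ = (pullU φ a)⁻¹ := by
  apply Units.ext
  rw [pullU_val φ (unitAt_inv ha), Units.val_inv_eq_inv_val, Units.val_inv_eq_inv_val,
    pullU_val φ ha, pullFun_inv φ (Units.ne_zero _) ha]

lemma pullU_div {a b : (X.functionField)ˣ} (ha : UnitAt (φ.base (genericPoint Y)) a)
    (hb : UnitAt (φ.base (genericPoint Y)) b) : pullU φ (a / b) = pullU φ a / pullU φ b := by
  rw [div_eq_mul_inv, div_eq_mul_inv, pullU_mul φ ha (unitAt_inv hb), pullU_inv φ hb]

lemma pullU_pow {a : (X.functionField)ˣ} (ha : UnitAt (φ.base (genericPoint Y)) a) (n : ℕ) :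
    pullU φ (a ^ n) = pullU φ a ^ n := by
  induction n with
  | zero => rw [pow_zero, pow_zero, pullU_one]
  | succ n ih => rw [pow_succ, pow_succ, pullU_mul φ (unitAt_pow ha n) ha, ih]

/-- units at `φ y` pull back to units at `y`. -/
lemma unitAt_pullU (y : Y) {a : (X.functionField)ˣ} (ha : UnitAt (φ.base y) a) :
    UnitAt y (pullU φ a) := by
  have h0 := unitAt_mono (map_specializes_genericPoint φ y) ha
  rw [unitAt_def, pullU_val φ h0]
  exact isUnitAt_pullFun φ y (Units.ne_zero _) ha

lemma pullU_val_mem_localRing (y : Y) {a : (X.functionField)ˣ}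
    (h0 : UnitAt (φ.base (genericPoint Y)) a)
    (ha : ((a : (X.functionField)ˣ) : X.functionField) ∈ localRing X (φ.base y)) :
    ((pullU φ a : (Y.functionField)ˣ) : Y.functionField) ∈ localRing Y y := by
  rw [pullU_val φ h0]
  exact pullFun_mem_localRing φ y ha

end PullU

section PullFam

variable {X Y : Scheme.{u}} [IsIntegral X] [IsIntegral Y] (φ : Y ⟶ X)

/-- good position: every local equation along the image of `φ` is a unit at the image of the
generic point of the source (for Cartier `D`: `φ(η) ∉ Supp D`). -/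
def GoodPos (D : Fam X) : Prop :=
  ∀ y : Y, UnitAt (φ.base (genericPoint Y)) (D (φ.base y))

lemma goodPos_one : GoodPos φ (1 : Fam X) := fun _ => unitAt_one _

lemma goodPos_mul {D D' : Fam X} (h : GoodPos φ D) (h' : GoodPos φ D') : GoodPos φ (D * D') :=
  fun y => unitAt_mul (h y) (h' y)

lemma goodPos_inv {D : Fam X} (h : GoodPos φ D) : GoodPos φ D⁻¹ :=
  fun y => unitAt_inv (h y)

lemma goodPos_pow {D : Fam X} (h : GoodPos φ D) (n : ℕ) : GoodPos φ (D ^ n) :=
  fun y => unitAt_pow (h y) n

lemma goodPos_of_not_inSupp {D : Fam X} (hD : D.IsCartier)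
    (h : ¬ D.InSupp (φ.base (genericPoint Y))) : GoodPos φ D := by
  intro y
  have h1 : UnitAt (φ.base (genericPoint Y)) (D (φ.base (genericPoint Y))) := not_not.mp h
  have h2 := unitAt_div_of_specializes hD (map_specializes_genericPoint φ y)
  have := unitAt_mul h2 h1
  rwa [div_mul_cancel] at this

/-- the normalised family `D - div(D_{φ η})` is in good position. -/
lemma goodPos_normalise {D : Fam X} (hD : D.IsCartier) :
    GoodPos φ (D * (Fam.const (D (φ.base (genericPoint Y))))⁻¹) := by
  intro y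
  have := unitAt_div_of_specializes hD (map_specializes_genericPoint φ y)
  show UnitAt _ (D (φ.base y) * (D (φ.base (genericPoint Y)))⁻¹)
  rwa [← div_eq_mul_inv]

lemma pullback_one : Fam.pullback φ (1 : Fam X) = 1 := by
  funext y; rw [pullback_apply]; exact pullU_one φ

lemma pullback_mul {D D' : Fam X} (h : GoodPos φ D) (h' : GoodPos φ D') :
    Fam.pullback φ (D * D') = Fam.pullback φ D * Fam.pullback φ D' := by
  funext y
  rw [Pi.mul_apply, pullback_apply, pullback_apply, pullback_apply, Pi.mul_apply,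
    pullU_mul φ (h y) (h' y)]

lemma pullback_inv {D : Fam X} (h : GoodPos φ D) :
    Fam.pullback φ D⁻¹ = (Fam.pullback φ D)⁻¹ := by
  funext y
  rw [Pi.inv_apply, pullback_apply, pullback_apply, Pi.inv_apply, pullU_inv φ (h y)]

lemma pullback_pow {D : Fam X} (h : GoodPos φ D) (n : ℕ) :
    Fam.pullback φ (D ^ n) = Fam.pullback φ D ^ n := by
  funext y
  rw [Pi.pow_apply, pullback_apply, pullback_apply, Pi.pow_apply, pullU_pow φ (h y)]

/-- the pullback of a Cartier family in good position is Cartier. -/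
lemma pullback_isCartier {D : Fam X} (hD : D.IsCartier) (h : GoodPos φ D) :
    (Fam.pullback φ D).IsCartier := by
  intro y
  obtain ⟨U, hyU, hU⟩ := hD (φ.base y)
  refine ⟨φ ⁻¹ᵁ U, hyU, fun z hz => ?_⟩
  show UnitAt z (Fam.pullback φ D z / Fam.pullback φ D y)
  rw [pullback_apply, pullback_apply, ← pullU_div φ (h z) (h y)]
  exact unitAt_pullU φ z (hU (φ.base z) hz)

lemma pullback_isEffective {D : Fam X} (hD : D.IsEffective) (h : GoodPos φ D) :
    (Fam.pullback φ D).IsEffective := by
  intro y
  rw [pullback_apply]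
  exact pullU_val_mem_localRing φ y (h y) (hD (φ.base y))

lemma pullback_same {D D' : Fam X} (hS : D.Same D') (h : GoodPos φ D) (h' : GoodPos φ D') :
    (Fam.pullback φ D).Same (Fam.pullback φ D') := by
  intro y
  show UnitAt y (Fam.pullback φ D y / Fam.pullback φ D' y)
  rw [pullback_apply, pullback_apply, ← pullU_div φ (h y) (h' y)]
  exact unitAt_pullU φ y (hS (φ.base y))

/-- `φ^* L(D) ⊆ L(φ^* D)` for functions regular at the image of the generic point. -/
lemma pullFun_mem_LSet {D : Fam X} (h : GoodPos φ D) {f : X.functionField}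
    (hf : f ∈ D.LSet) (hf0 : f ∈ localRing X (φ.base (genericPoint Y))) :
    pullFun φ f ∈ (Fam.pullback φ D).LSet := by
  intro y
  rw [pullback_apply, pullU_val φ (h y), ← pullFun_mul φ hf0 (h y).1]
  exact pullFun_mem_localRing φ y (hf (φ.base y))

end PullFam

section PullC

variable {X Y : Scheme.{u}} [IsIntegral X] [IsIntegral Y] (φ : Y ⟶ X)

lemma pullc_eq (D : Fam X) :
    Fam.pullc φ D = Fam.pullback φ (D * (Fam.const (D (φ.base (genericPoint Y))))⁻¹) := rfl

lemma pullc_apply (D : Fam X) (y : Y) :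
    Fam.pullc φ D y = pullU φ (D (φ.base y) / D (φ.base (genericPoint Y))) := by
  rw [pullc_eq, pullback_apply, div_eq_mul_inv]
  rfl

lemma unitAt_gen_div {D : Fam X} (hD : D.IsCartier) (y : Y) :
    UnitAt (φ.base (genericPoint Y)) (D (φ.base y) / D (φ.base (genericPoint Y))) :=
  unitAt_div_of_specializes hD (map_specializes_genericPoint φ y)

/-- the class-level pullback of a Cartier family is Cartier. -/
lemma pullc_isCartier {D : Fam X} (hD : D.IsCartier) : (Fam.pullc φ D).IsCartier :=
  pullback_isCartier φ (isCartier_mul hD (isCartier_inv (isCartier_const _)))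
    (goodPos_normalise φ hD)

lemma pullc_one : Fam.pullc φ (1 : Fam X) = 1 := by
  funext y
  rw [pullc_apply]
  show pullU φ (1 / 1) = 1
  rw [div_one, pullU_one]

lemma pullc_mul {D D' : Fam X} (hD : D.IsCartier) (hD' : D'.IsCartier) :
    Fam.pullc φ (D * D') = Fam.pullc φ D * Fam.pullc φ D' := by
  funext y
  rw [Pi.mul_apply, pullc_apply, pullc_apply, pullc_apply,
    ← pullU_mul φ (unitAt_gen_div φ hD y) (unitAt_gen_div φ hD' y)]
  congr 1
  show (D (φ.base y) * D' (φ.base y)) / (D _ * D' _) = _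
  rw [div_mul_div_comm]

lemma pullc_inv {D : Fam X} (hD : D.IsCartier) :
    Fam.pullc φ D⁻¹ = (Fam.pullc φ D)⁻¹ := by
  funext y
  rw [Pi.inv_apply, pullc_apply, pullc_apply, ← pullU_inv φ (unitAt_gen_div φ hD y)]
  congr 1
  show (D (φ.base y))⁻¹ / (D _)⁻¹ = _
  rw [inv_div_inv, inv_div]

lemma pullc_pow {D : Fam X} (hD : D.IsCartier) (n : ℕ) :
    Fam.pullc φ (D ^ n) = Fam.pullc φ D ^ n := by
  induction n with
  | zero => rw [pow_zero, pow_zero, pullc_one]
  | succ n ih => rw [pow_succ, pow_succ, pullc_mul φ (isCartier_pow hD n) hD, ih]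

/-- principal divisors pull back to the trivial family. -/
lemma pullc_const (f : (X.functionField)ˣ) : Fam.pullc φ (Fam.const f : Fam X) = 1 := by
  funext y
  rw [pullc_apply]
  show pullU φ (f / f) = 1
  rw [div_self', pullU_one]

/-- a unit-valued family pulls back to a principal divisor. -/
lemma pullc_linEquiv_one_of_same_one {E : Fam X} (hE : E.Same 1) :
    (Fam.pullc φ E).LinEquiv 1 := by
  have hu : ∀ x, UnitAt x (E x) := fun x => by
    have := hE x
    have e : E x / (1 : Fam X) x = E x := by simp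
    rw [e] at this
    exact this
  have hE' : E.IsCartier := isCartier_of_same (same_symm hE) isCartier_one
  have hg := hu (φ.base (genericPoint Y))
  refine linEquiv_iff.mpr ⟨(pullU φ (E (φ.base (genericPoint Y))))⁻¹, fun y => ?_⟩
  have hy : UnitAt (φ.base (genericPoint Y)) (E (φ.base y)) :=
    unitAt_mono (map_specializes_genericPoint φ y) (hu _)
  rw [pullc_apply, pullU_div φ hy hg]
  show UnitAt y (pullU φ (E (φ.base y)) / pullU φ (E (φ.base (genericPoint Y))) /
    (1 * (pullU φ (E (φ.base (genericPoint Y))))⁻¹))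
  rw [one_mul, div_div, mul_inv_cancel, div_one]
  exact unitAt_pullU φ y (hu _)

/-- the class-level pullback respects equality of divisors (up to linear equivalence). -/
lemma pullc_linEquiv_of_same {D D' : Fam X} (hD : D.IsCartier) (hD' : D'.IsCartier)
    (h : D.Same D') : (Fam.pullc φ D).LinEquiv (Fam.pullc φ D') := by
  have hE : (D / D').Same 1 := fun x => by
    show UnitAt x ((D x / D' x) / 1)
    rw [div_one]; exact h x
  have e : D = D' * (D / D') := by
    funext x; show D x = D' x * (D x / D' x); rw [mul_div_cancel]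
  have hc : (D / D').IsCartier := isCartier_div hD hD'
  have h1 := linEquiv_mul (linEquiv_refl (Fam.pullc φ D')) (pullc_linEquiv_one_of_same_one φ hE)
  rw [mul_one, ← pullc_mul φ hD' hc, ← e] at h1
  exact h1

/-- **the class-level pullback respects linear equivalence.** -/
lemma pullc_linEquiv {D D' : Fam X} (hD : D.IsCartier) (hD' : D'.IsCartier)
    (h : D.LinEquiv D') : (Fam.pullc φ D).LinEquiv (Fam.pullc φ D') := by
  obtain ⟨f, hf⟩ := h
  have hc : (D' * Fam.const f).IsCartier := isCartier_mul hD' (isCartier_const f)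
  have h1 := pullc_linEquiv_of_same φ hD hc hf
  rwa [pullc_mul φ hD' (isCartier_const f), pullc_const, mul_one] at h1

/-- in good position the class-level pullback is linearly equivalent to the divisor-level
pullback. -/
lemma pullc_linEquiv_pullback {D : Fam X} (h : GoodPos φ D) :
    (Fam.pullc φ D).LinEquiv (Fam.pullback φ D) := by
  have hg := h (genericPoint Y)
  refine linEquiv_iff.mpr ⟨(pullU φ (D (φ.base (genericPoint Y))))⁻¹, fun y => ?_⟩
  rw [pullc_apply, pullU_div φ (h y) hg, pullback_apply, ← div_eq_mul_inv, div_self']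
  exact unitAt_one y

/-- if the image of `φ` is a single point, the class-level pullback is trivial. -/
lemma pullc_of_const_map (hφ : ∀ y, φ.base y = φ.base (genericPoint Y)) (D : Fam X) :
    Fam.pullc φ D = 1 := by
  funext y
  rw [pullc_apply, hφ y, div_self', pullU_one]
  rfl

end PullC

section Functoriality

variable {X Y Z : Scheme.{u}} [IsIntegral X] [IsIntegral Y] [IsIntegral Z]
  (ψ : Z ⟶ Y) (φ : Y ⟶ X)

lemma pullFun_comp {u : X.functionField}
    (hu : u ∈ localRing X (φ.base (ψ.base (genericPoint Z)))) :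
    pullFun (ψ ≫ φ) u = pullFun ψ (pullFun φ u) := by
  obtain ⟨a, rfl⟩ := hu
  have e1 := pullFun_algebraMap φ (ψ.base (genericPoint Z)) a
  have e2 := pullFun_algebraMap ψ (genericPoint Z) (φ.stalkMap (ψ.base (genericPoint Z)) a)
  have e3 := pullFun_algebraMap (ψ ≫ φ) (genericPoint Z) a
  rw [e1, e2]
  refine e3.trans ?_
  rw [Scheme.Hom.stalkMap_comp]
  rfl

lemma pullU_comp {a : (X.functionField)ˣ}
    (ha : UnitAt (φ.base (ψ.base (genericPoint Z))) a) :
    pullU (ψ ≫ φ) a = pullU ψ (pullU φ a) := by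
  have h1 : UnitAt (φ.base (genericPoint Y)) a :=
    unitAt_mono (map_specializes_genericPoint φ _) ha
  have h2 : UnitAt (ψ.base (genericPoint Z)) (pullU φ a) := unitAt_pullU φ _ ha
  apply Units.ext
  rw [pullU_val ψ h2, pullU_val φ h1, ← pullFun_comp ψ φ ha.1]
  exact pullU_val (ψ ≫ φ) ha

/-- **functoriality of the class-level pullback (on the nose).** -/
lemma pullc_comp {D : Fam X} (hD : D.IsCartier) :
    Fam.pullc (ψ ≫ φ) D = Fam.pullc ψ (Fam.pullc φ D) := by
  funext z
  have hsp : φ.base (ψ.base (genericPoint Z)) ⤳ φ.base (ψ.base z) :=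
    φ.base.hom.map_specializes (map_specializes_genericPoint ψ z)
  have hz : UnitAt (φ.base (ψ.base (genericPoint Z)))
      (D (φ.base (ψ.base z)) / D (φ.base (ψ.base (genericPoint Z)))) :=
    unitAt_div_of_specializes hD hsp
  rw [pullc_apply ψ, pullc_apply φ, pullc_apply φ,
    ← pullU_div φ (unitAt_gen_div φ hD _) (unitAt_gen_div φ hD _), div_div_div_cancel_right,
    ← pullU_comp ψ φ hz]
  exact pullc_apply (ψ ≫ φ) D z

end Functoriality

section Identity

variable {X : Scheme.{u}} [IsIntegral X]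

lemma pullFun_id (u : X.functionField) : pullFun (𝟙 X) u = u := by
  have hu : u ∈ localRing X ((𝟙 X : X ⟶ X).base (genericPoint X)) := by
    have : localRing X ((𝟙 X : X ⟶ X).base (genericPoint X)) = ⊤ := localRing_genericPoint
    rw [this]; trivial
  obtain ⟨a, rfl⟩ := hu
  rw [pullFun_algebraMap (𝟙 X) (genericPoint X) a, Scheme.Hom.stalkMap_id]
  rfl

lemma pullU_id (a : (X.functionField)ˣ) : pullU (𝟙 X) a = a := by
  apply Units.ext
  have h : UnitAt ((𝟙 X : X ⟶ X).base (genericPoint X)) a := unitAt_genericPoint a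
  rw [pullU_val (𝟙 X) h, pullFun_id]

/-- the class-level pullback along the identity is linearly equivalent to the family. -/
lemma pullc_id (D : Fam X) : (Fam.pullc (𝟙 X) D).LinEquiv D := by
  refine linEquiv_iff.mpr ⟨(D (genericPoint X))⁻¹, fun x => ?_⟩
  rw [pullc_apply, pullU_id]
  show UnitAt x (D x / D (genericPoint X) / (D x * (D (genericPoint X))⁻¹))
  rw [← div_eq_mul_inv, div_self']
  exact unitAt_one x

end Identity

end Fermat.Agent.S26.DIV.Core6464
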