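import Fermat.Agent.S26.Geom
import Fermat.Agent.S26.DIV.Core6464

/-!
# S26 / P5 DIV: the frozen P5 export `integral_mem_LSpace` of `Top.lean` (helper6464)

Proved with EXACTLY the frozen signature under the name
`Fermat.Agent.S26.DIV.integral_mem_LSpace`, modulo the frozen P6 export
`Fermat.Agent.S26.localRing_integrallyClosed_of_smooth` (the only frozen export used).
-/

set_option autoImplicit false

universe u

open CategoryTheory CategoryTheory.Limits AlgebraicGeometry NeronModelInfra GoodReductionJacobian

namespace Fermat.Agent.S26.DIV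

open Fermat.Agent.S26

noncomputable section

variable {K : Type u} [Field K] [IsAlgClosed K] {A : Scheme.{u}}
  {f : A ⟶ Spec (CommRingCat.of K)}

/-- P5 EXPORT (normality): graded integral closedness of `L(E^k)` on the normal variety `A`. -/
theorem integral_mem_LSpace [IsIntegral A] (L : RelativeGroupLaw K f)
    (hA : AbelianSchemePropertyBundle K f) (E : Fam A) (hE : E.IsCartier)
    (k m : ℕ) (y : FF f) (c : ℕ → FF f) (hc : ∀ i < m, c i ∈ LSpace f (E ^ ((m - i) * k)))
    (hy : y ^ m + ∑ i ∈ Finset.range m, c i * y ^ i = 0) : y ∈ LSpace f (E ^ k) := by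
  haveI : Smooth f := hA.smooth
  exact Core6464.LSet_int (fun x u hu => localRing_integrallyClosed_of_smooth f x u hu)
    E k m c y hc hy

end

end Fermat.Agent.S26.DIV
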