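import Fermat.Agent.S26.DIV.Core6464

/-!
# S26 / P5 DIV: the frozen P5 exports of `Geom.lean` (and four `pullFun` exports of P6),
proved with EXACTLY the frozen signatures, under the names `Fermat.Agent.S26.DIV.*` (helper6464)

This file imports only `Defs.lean` (through `Core6464.lean`): no frozen export is used.
-/

set_option autoImplicit false

universe u

open CategoryTheory CategoryTheory.Limits AlgebraicGeometry NeronModelInfra GoodReductionJacobian

namespace Fermat.Agent.S26.DIV

open Fermat.Agent.S26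

noncomputable section

variable {K : Type u} [Field K] [IsAlgClosed K]

/-! ## P6 VAR exports about `pullFun` -/

/-- P6 EXPORT: for a dominant morphism, `pullFun` is an injective ring homomorphism. -/
theorem exists_ringHom_pullFun {X Y : Scheme.{u}} [IsIntegral X] [IsIntegral Y] (φ : Y ⟶ X)
    (hφ : φ.base (genericPoint Y) = genericPoint X) :
    ∃ ι : X.functionField →+* Y.functionField, ∀ v, ι v = pullFun φ v := by
  have htop : ∀ v : X.functionField, v ∈ localRing X (φ.base (genericPoint Y)) := by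
    intro v
    rw [hφ, Core6464.localRing_genericPoint]
    trivial
  exact ⟨{ toFun := pullFun φ
           map_one' := Core6464.pullFun_one φ
           map_mul' := fun a b => Core6464.pullFun_mul φ (htop a) (htop b)
           map_zero' := Core6464.pullFun_zero φ
           map_add' := fun a b => Core6464.pullFun_add φ (htop a) (htop b) }, fun _ => rfl⟩

/-- P6 EXPORT: `pullFun` is compatible with the constants. -/
theorem pullFun_constHom {X Y : Scheme.{u}} [IsIntegral X] [IsIntegral Y]
    (sX : X ⟶ Spec (CommRingCat.of K)) (sY : Y ⟶ Spec (CommRingCat.of K))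
    (φ : Y ⟶ X) (hφ : φ ≫ sX = sY) (c : K) : pullFun φ (constHom sX c) = constHom sY c := by
  subst hφ
  set t : Γ(X, ⊤) := sX.appTop.hom ((Scheme.ΓSpecIso (CommRingCat.of K)).inv.hom c) with ht
  have h1 : constHom sX c = algebraMap (X.presheaf.stalk (φ.base (genericPoint Y)))
      X.functionField (X.presheaf.germ ⊤ (φ.base (genericPoint Y)) trivial t) :=
    (Scheme.algebraMap_germ_eq_germToFunctionField X (U := ⊤)
      (x := φ.base (genericPoint Y)) trivial t).symm
  rw [h1, Core6464.pullFun_algebraMap φ (genericPoint Y)]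
  have h2 := Scheme.Hom.germ_stalkMap_apply φ ⊤ (genericPoint Y) trivial t
  rw [h2]
  haveI : Nonempty ((φ ⁻¹ᵁ ⊤ : Y.Opens) : Type u) := ⟨⟨genericPoint Y, trivial⟩⟩
  have h3 := Scheme.algebraMap_germ_eq_germToFunctionField Y (U := φ ⁻¹ᵁ ⊤)
    (x := genericPoint Y) trivial (φ.app ⊤ t)
  rw [h3]
  show _ = (Y.germToFunctionField ⊤).hom
    ((φ ≫ sX).appTop.hom ((Scheme.ΓSpecIso (CommRingCat.of K)).inv.hom c))
  rw [Scheme.Hom.comp_appTop]
  rfl

/-- P6 EXPORT: `pullFun` is contravariantly functorial on functions regular at the image of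
the generic point. -/
theorem pullFun_comp {X Y Z : Scheme.{u}} [IsIntegral X] [IsIntegral Y] [IsIntegral Z]
    (ψ : Z ⟶ Y) (φ : Y ⟶ X) (v : X.functionField)
    (hv : v ∈ localRing X ((ψ ≫ φ).base (genericPoint Z))) :
    pullFun (ψ ≫ φ) v = pullFun ψ (pullFun φ v) :=
  Core6464.pullFun_comp ψ φ hv

/-- P6 EXPORT: the local homomorphism property: `pullFun φ` maps the local ring at `φ y` into
the local ring at `y`, and units to units. -/
theorem pullFun_mem_localRing {X Y : Scheme.{u}} [IsIntegral X] [IsIntegral Y] (φ : Y ⟶ X)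
    (y : Y) (v : X.functionField) (hv : v ∈ localRing X (φ.base y)) :
    pullFun φ v ∈ localRing Y y ∧ (IsUnitAt (φ.base y) v → IsUnitAt y (pullFun φ v)) := by
  refine ⟨Core6464.pullFun_mem_localRing φ y hv, fun hu => ?_⟩
  by_cases h0 : v = 0
  · subst h0
    rw [Core6464.pullFun_zero]
    exact ⟨Subring.zero_mem _, by rw [inv_zero]; exact Subring.zero_mem _⟩
  · exact Core6464.isUnitAt_pullFun φ y h0 hu

/-! ## P5 DIV: the calculus of `Fam.pullc` (classes) and `Fam.pullback` -/

/-- P5 EXPORT: linear equivalence is an equivalence relation compatible with products. -/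
theorem linEquiv_equivalence {X : Scheme.{u}} [IsIntegral X] :
    Equivalence (Fam.LinEquiv (X := X)) ∧
      (∀ D₁ D₂ E₁ E₂ : Fam X, Fam.LinEquiv D₁ D₂ → Fam.LinEquiv E₁ E₂ →
        Fam.LinEquiv (D₁ * E₁) (D₂ * E₂)) ∧
      (∀ D₁ D₂ : Fam X, Fam.LinEquiv D₁ D₂ → Fam.LinEquiv D₁⁻¹ D₂⁻¹) :=
  ⟨⟨Core6464.linEquiv_refl, Core6464.linEquiv_symm, Core6464.linEquiv_trans⟩,
    fun _ _ _ _ h h' => Core6464.linEquiv_mul h h', fun _ _ h => Core6464.linEquiv_inv h⟩

/-- P5 EXPORT: `pullc` of a Cartier divisor is Cartier. -/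
theorem isCartier_pullc {X Y : Scheme.{u}} [IsIntegral X] [IsIntegral Y] (φ : Y ⟶ X)
    (D : Fam X) (hD : D.IsCartier) : (Fam.pullc φ D).IsCartier :=
  Core6464.pullc_isCartier φ hD

/-- P5 EXPORT: `pullc` is multiplicative and respects linear equivalence (on Cartier divisors). -/
theorem pullc_mul {X Y : Scheme.{u}} [IsIntegral X] [IsIntegral Y] (φ : Y ⟶ X)
    (D E : Fam X) (hD : D.IsCartier) (hE : E.IsCartier) :
    Fam.Same (Fam.pullc φ (D * E)) (Fam.pullc φ D * Fam.pullc φ E) ∧
      Fam.Same (Fam.pullc φ D⁻¹) (Fam.pullc φ D)⁻¹ := by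
  rw [Core6464.pullc_mul φ hD hE, Core6464.pullc_inv φ hD]
  exact ⟨Core6464.same_refl _, Core6464.same_refl _⟩

theorem pullc_linEquiv {X Y : Scheme.{u}} [IsIntegral X] [IsIntegral Y] (φ : Y ⟶ X)
    (D E : Fam X) (hD : D.IsCartier) (hE : E.IsCartier) (h : Fam.LinEquiv D E) :
    Fam.LinEquiv (Fam.pullc φ D) (Fam.pullc φ E) :=
  Core6464.pullc_linEquiv φ hD hE h

/-- P5 EXPORT: functoriality of `pullc` on classes. -/
theorem pullc_comp {X Y Z : Scheme.{u}} [IsIntegral X] [IsIntegral Y] [IsIntegral Z]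
    (ψ : Z ⟶ Y) (φ : Y ⟶ X) (D : Fam X) (hD : D.IsCartier) :
    Fam.LinEquiv (Fam.pullc (ψ ≫ φ) D) (Fam.pullc ψ (Fam.pullc φ D)) := by
  rw [Core6464.pullc_comp ψ φ hD]
  exact Core6464.linEquiv_refl _

/-- P5 EXPORT: `pullc` along the identity. -/
theorem pullc_id {X : Scheme.{u}} [IsIntegral X] (D : Fam X) (hD : D.IsCartier) :
    Fam.LinEquiv (Fam.pullc (𝟙 X) D) D :=
  Core6464.pullc_id D

/-- P5 EXPORT: if `φ(η_Y)` is not in the support of `D`, the divisor-level pullback is Cartier
and represents the class-level pullback. -/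
theorem pullback_linEquiv_pullc {X Y : Scheme.{u}} [IsIntegral X] [IsIntegral Y] (φ : Y ⟶ X)
    (D : Fam X) (hD : D.IsCartier) (hsupp : ¬ D.InSupp (φ.base (genericPoint Y))) :
    (Fam.pullback φ D).IsCartier ∧ Fam.LinEquiv (Fam.pullback φ D) (Fam.pullc φ D) := by
  have hg := Core6464.goodPos_of_not_inSupp φ hD hsupp
  exact ⟨Core6464.pullback_isCartier φ hD hg,
    Core6464.linEquiv_symm (Core6464.pullc_linEquiv_pullback φ hg)⟩

/-- P5 EXPORT: a class pulled back through a `K`-point is trivial. -/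
theorem pullc_of_factors_through_point {X Y : Scheme.{u}} [IsIntegral X] [IsIntegral Y]
    (sY : Y ⟶ Spec (CommRingCat.of K)) (p : Spec (CommRingCat.of K) ⟶ X)
    (D : Fam X) (hD : D.IsCartier) : Fam.LinEquiv (Fam.pullc (sY ≫ p) D) 1 := by
  have hsub : Subsingleton (Spec (CommRingCat.of K)) :=
    inferInstanceAs (Subsingleton (PrimeSpectrum K))
  have hconst : ∀ y, (sY ≫ p).base y = (sY ≫ p).base (genericPoint Y) := by
    intro y
    show p.base (sY.base y) = p.base (sY.base (genericPoint Y))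
    rw [Subsingleton.elim (sY.base y) (sY.base (genericPoint Y))]
  rw [Core6464.pullc_of_const_map (sY ≫ p) hconst D]
  exact Core6464.linEquiv_refl _

end

end Fermat.Agent.S26.DIV
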