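import Fermat.Agent.S26.DIV.Fam_h2384

/-!
# S26 / DIV: basic API for `pullFun` (pullback of rational functions) (helper2384)
-/

set_option autoImplicit false

universe u

open CategoryTheory AlgebraicGeometry

namespace Fermat.Agent.S26.DIV.H2384

open Fermat.Agent.S26

noncomputable section

variable {X Y Z : Scheme.{u}} [IsIntegral X] [IsIntegral Y] [IsIntegral Z]

/-- `pullFun` on an element coming from the stalk at `φ(η_Y)`. -/
theorem pullFun_algebraMap (φ : Y ⟶ X) (a : X.presheaf.stalk (φ.base (genericPoint Y))) :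
    pullFun φ (algebraMap (X.presheaf.stalk (φ.base (genericPoint Y))) X.functionField a) =
      (φ.stalkMap (genericPoint Y)).hom a := by
  have h : algebraMap (X.presheaf.stalk (φ.base (genericPoint Y))) X.functionField a ∈
      localRing X (φ.base (genericPoint Y)) := ⟨a, rfl⟩
  unfold pullFun
  rw [dif_pos h]
  congr 1
  exact algebraMap_stalk_injective _ (Classical.choose_spec h)

theorem pullFun_of_not_mem (φ : Y ⟶ X) {u : X.functionField}
    (h : u ∉ localRing X (φ.base (genericPoint Y))) : pullFun φ u = 0 := by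
  unfold pullFun
  rw [dif_neg h]

theorem map_genericPoint_specializes (φ : Y ⟶ X) (y : Y) :
    φ.base (genericPoint Y) ⤳ φ.base y :=
  φ.base.hom.map_specializes (genericPoint_specializes y)

/-- `pullFun` on an element coming from the stalk at `φ y`, for an arbitrary point `y`. -/
theorem pullFun_algebraMap_at (φ : Y ⟶ X) (y : Y) (a : X.presheaf.stalk (φ.base y)) :
    pullFun φ (algebraMap (X.presheaf.stalk (φ.base y)) X.functionField a) =
      algebraMap (Y.presheaf.stalk y) Y.functionField ((φ.stalkMap y).hom a) := by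
  have h1 : algebraMap (X.presheaf.stalk (φ.base y)) X.functionField a =
      algebraMap (X.presheaf.stalk (φ.base (genericPoint Y))) X.functionField
        (X.presheaf.stalkSpecializes (map_genericPoint_specializes φ y) a) := by
    rw [algebraMap_stalk_eq, algebraMap_stalk_eq]
    have := TopCat.Presheaf.stalkSpecializes_comp X.presheaf
      (genericPoint_specializes (φ.base (genericPoint Y))) (map_genericPoint_specializes φ y)
    exact (congrArg (fun f => f.hom a) this).symm
  rw [h1, pullFun_algebraMap, algebraMap_stalk_eq]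
  exact Scheme.Hom.stalkSpecializes_stalkMap_apply φ (genericPoint Y) y
    (genericPoint_specializes y) a

/-- Regular functions pull back to regular functions. -/
theorem pullFun_mem_localRing (φ : Y ⟶ X) (y : Y) {u : X.functionField}
    (hu : u ∈ localRing X (φ.base y)) : pullFun φ u ∈ localRing Y y := by
  obtain ⟨a, rfl⟩ := hu
  rw [pullFun_algebraMap_at]
  exact ⟨_, rfl⟩

theorem pullFun_zero (φ : Y ⟶ X) : pullFun φ (0 : X.functionField) = 0 := by
  have := pullFun_algebraMap φ 0
  rwa [map_zero, map_zero] at this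

theorem pullFun_one (φ : Y ⟶ X) : pullFun φ (1 : X.functionField) = 1 := by
  have := pullFun_algebraMap φ 1
  rwa [map_one, map_one] at this

theorem pullFun_add (φ : Y ⟶ X) {u v : X.functionField}
    (hu : u ∈ localRing X (φ.base (genericPoint Y)))
    (hv : v ∈ localRing X (φ.base (genericPoint Y))) :
    pullFun φ (u + v) = pullFun φ u + pullFun φ v := by
  obtain ⟨a, rfl⟩ := hu
  obtain ⟨b, rfl⟩ := hv
  rw [← map_add, pullFun_algebraMap, pullFun_algebraMap, pullFun_algebraMap, map_add]

theorem pullFun_mul (φ : Y ⟶ X) {u v : X.functionField}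
    (hu : u ∈ localRing X (φ.base (genericPoint Y)))
    (hv : v ∈ localRing X (φ.base (genericPoint Y))) :
    pullFun φ (u * v) = pullFun φ u * pullFun φ v := by
  obtain ⟨a, rfl⟩ := hu
  obtain ⟨b, rfl⟩ := hv
  rw [← map_mul, pullFun_algebraMap, pullFun_algebraMap, pullFun_algebraMap, map_mul]

theorem pullFun_neg (φ : Y ⟶ X) (u : X.functionField) :
    pullFun φ (-u) = - pullFun φ u := by
  by_cases hu : u ∈ localRing X (φ.base (genericPoint Y))
  · obtain ⟨a, rfl⟩ := hu
    rw [← map_neg, pullFun_algebraMap, pullFun_algebraMap, map_neg]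
  · have hu' : -u ∉ localRing X (φ.base (genericPoint Y)) := fun h => hu (by simpa using Subring.neg_mem _ h)
    rw [pullFun_of_not_mem φ hu, pullFun_of_not_mem φ hu', neg_zero]

theorem pullFun_sub (φ : Y ⟶ X) {u v : X.functionField}
    (hu : u ∈ localRing X (φ.base (genericPoint Y)))
    (hv : v ∈ localRing X (φ.base (genericPoint Y))) :
    pullFun φ (u - v) = pullFun φ u - pullFun φ v := by
  rw [sub_eq_add_neg, pullFun_add φ hu (Subring.neg_mem _ hv), pullFun_neg, sub_eq_add_neg]

theorem pullFun_pow (φ : Y ⟶ X) {u : X.functionField}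
    (hu : u ∈ localRing X (φ.base (genericPoint Y))) (k : ℕ) :
    pullFun φ (u ^ k) = pullFun φ u ^ k := by
  obtain ⟨a, rfl⟩ := hu
  rw [← map_pow, pullFun_algebraMap, pullFun_algebraMap, map_pow]

/-- Units at `φ(η_Y)` pull back to nonzero functions, compatibly with inverses. -/
theorem pullFun_mul_pullFun_inv (φ : Y ⟶ X) {u : X.functionField}
    (hu : IsUnitAt (φ.base (genericPoint Y)) u) (h0 : u ≠ 0) :
    pullFun φ u * pullFun φ u⁻¹ = 1 := by
  rw [← pullFun_mul φ hu.1 hu.2, mul_inv_cancel₀ h0, pullFun_one]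

theorem pullFun_ne_zero (φ : Y ⟶ X) {u : X.functionField}
    (hu : IsUnitAt (φ.base (genericPoint Y)) u) (h0 : u ≠ 0) : pullFun φ u ≠ 0 := by
  intro h
  have := pullFun_mul_pullFun_inv φ hu h0
  rw [h, zero_mul] at this
  exact zero_ne_one this

theorem pullFun_inv (φ : Y ⟶ X) {u : X.functionField}
    (hu : IsUnitAt (φ.base (genericPoint Y)) u) : pullFun φ u⁻¹ = (pullFun φ u)⁻¹ := by
  by_cases h0 : u = 0
  · subst h0; rw [inv_zero, pullFun_zero, inv_zero]
  · exact eq_inv_of_mul_eq_one_right (pullFun_mul_pullFun_inv φ hu h0)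

theorem pullFun_div (φ : Y ⟶ X) {u v : X.functionField}
    (hu : u ∈ localRing X (φ.base (genericPoint Y)))
    (hv : IsUnitAt (φ.base (genericPoint Y)) v) :
    pullFun φ (u / v) = pullFun φ u / pullFun φ v := by
  rw [div_eq_mul_inv, pullFun_mul φ hu hv.2, pullFun_inv φ hv, div_eq_mul_inv]

/-- Units at `φ y` pull back to units at `y`. -/
theorem isUnitAt_pullFun (φ : Y ⟶ X) (y : Y) {u : X.functionField}
    (hu : IsUnitAt (φ.base y) u) : IsUnitAt y (pullFun φ u) := by
  refine ⟨pullFun_mem_localRing φ y hu.1, ?_⟩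
  rw [← pullFun_inv φ (isUnitAt_of_specializes (map_genericPoint_specializes φ y) hu)]
  exact pullFun_mem_localRing φ y hu.2

theorem pullFun_id (u : X.functionField) : pullFun (𝟙 X) u = u := by
  have hu : u ∈ localRing X ((𝟙 X : X ⟶ X).base (genericPoint X)) := by
    have : (𝟙 X : X ⟶ X).base (genericPoint X) = genericPoint X := rfl
    rw [this, localRing_genericPoint]; trivial
  obtain ⟨a, rfl⟩ := hu
  rw [pullFun_algebraMap, algebraMap_stalk_eq]
  simp

/-- Functoriality of `pullFun`. -/
theorem pullFun_comp (ψ : Z ⟶ Y) (φ : Y ⟶ X) {u : X.functionField}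
    (hu : u ∈ localRing X (φ.base (ψ.base (genericPoint Z)))) :
    pullFun (ψ ≫ φ) u = pullFun ψ (pullFun φ u) := by
  obtain ⟨a, rfl⟩ := hu
  rw [pullFun_algebraMap_at φ (ψ.base (genericPoint Z)) a, pullFun_algebraMap ψ]
  have h := pullFun_algebraMap (ψ ≫ φ) a
  rw [Scheme.Hom.stalkMap_comp] at h
  exact h

/-- `pullFun` for a dominant morphism is everywhere additive and multiplicative. -/
theorem mem_localRing_of_dominant (φ : Y ⟶ X) (hφ : φ.base (genericPoint Y) = genericPoint X)
    (u : X.functionField) : u ∈ localRing X (φ.base (genericPoint Y)) := by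
  rw [hφ, localRing_genericPoint]; trivial

theorem isUnitAt_of_dominant (φ : Y ⟶ X) (hφ : φ.base (genericPoint Y) = genericPoint X)
    (u : X.functionField) : IsUnitAt (φ.base (genericPoint Y)) u := by
  rw [hφ]; exact isUnitAt_genericPoint u

theorem pullFun_injective_of_dominant (φ : Y ⟶ X)
    (hφ : φ.base (genericPoint Y) = genericPoint X) : Function.Injective (pullFun φ) := by
  intro u v huv
  by_contra hne
  have h0 : u - v ≠ 0 := sub_ne_zero.mpr hne
  have := pullFun_ne_zero φ (isUnitAt_of_dominant φ hφ (u - v)) h0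
  rw [pullFun_sub φ (mem_localRing_of_dominant φ hφ u) (mem_localRing_of_dominant φ hφ v), huv,
    sub_self] at this
  exact this rfl

/-- The field homomorphism `K(X) → K(Y)` of a dominant morphism. -/
def pullHom (φ : Y ⟶ X) (hφ : φ.base (genericPoint Y) = genericPoint X) :
    X.functionField →+* Y.functionField where
  toFun := pullFun φ
  map_one' := pullFun_one φ
  map_mul' u v := pullFun_mul φ (mem_localRing_of_dominant φ hφ u) (mem_localRing_of_dominant φ hφ v)
  map_zero' := pullFun_zero φ
  map_add' u v := pullFun_add φ (mem_localRing_of_dominant φ hφ u) (mem_localRing_of_dominant φ hφ v)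

@[simp]
theorem pullHom_apply (φ : Y ⟶ X) (hφ : φ.base (genericPoint Y) = genericPoint X)
    (u : X.functionField) : pullHom φ hφ u = pullFun φ u := rfl

end

end Fermat.Agent.S26.DIV.H2384
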