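import Mathlib

/-!
# Local rings inside the function field (bridge lemmas for S26 / DIV, helper5416)

For an integral scheme `X` we regard every stalk `O_x` as a subring `localRing X x` of the
function field `K(X) = X.functionField` and prove the basic facts needed for divisors given by
local equations.
-/

open AlgebraicGeometry CategoryTheory TopologicalSpace Opposite

namespace Fermat.Agent.S26.DIV.Bridge5416

universe u

variable (X : Scheme.{u}) [IsIntegral X]

/-- The local ring `O_x` as a subring of the function field. -/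
noncomputable def localRing (x : X) : Subring X.functionField :=
  (algebraMap (X.presheaf.stalk x) X.functionField).range

lemma mem_localRing_iff (x : X) (f : X.functionField) :
    f ∈ localRing X x ↔ ∃ s : X.presheaf.stalk x, algebraMap _ X.functionField s = f :=
  Iff.rfl

lemma algebraMap_stalk_eq (x : X) :
    algebraMap (X.presheaf.stalk x) X.functionField =
      (X.presheaf.stalkSpecializes ((genericPoint_spec X).specializes trivial)).hom := rfl

lemma algebraMap_stalk_injective (x : X) :
    Function.Injective (algebraMap (X.presheaf.stalk x) X.functionField) :=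
  IsFractionRing.injective _ _

/-- Compatibility of the embeddings of the stalks with specialisation maps. -/
lemma algebraMap_stalkSpecializes {x z : X} (h : z ⤳ x) (s : X.presheaf.stalk x) :
    algebraMap (X.presheaf.stalk z) X.functionField (X.presheaf.stalkSpecializes h s) =
      algebraMap (X.presheaf.stalk x) X.functionField s := by
  simp only [algebraMap_stalk_eq]
  rw [← ConcreteCategory.comp_apply, TopCat.Presheaf.stalkSpecializes_comp]

lemma localRing_mono {x z : X} (h : z ⤳ x) : localRing X x ≤ localRing X z := by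
  rintro f ⟨s, rfl⟩
  exact ⟨X.presheaf.stalkSpecializes h s, algebraMap_stalkSpecializes X h s⟩

lemma genericPoint_specializes (x : X) : genericPoint X ⤳ x :=
  (genericPoint_spec X).specializes trivial

lemma genericPoint_mem_of_mem {U : X.Opens} {x : X} (hx : x ∈ U) : genericPoint X ∈ U :=
  (genericPoint_specializes X x).mem_open U.isOpen hx

lemma algebraMap_germ {U : X.Opens} {x : X} (hx : x ∈ U) (s : Γ(X, U)) :
    algebraMap (X.presheaf.stalk x) X.functionField (X.presheaf.germ U x hx s) =
      X.presheaf.germ U (genericPoint X) (genericPoint_mem_of_mem X hx) s := by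
  rw [algebraMap_stalk_eq, ← ConcreteCategory.comp_apply, TopCat.Presheaf.germ_stalkSpecializes]

/-- `f ∈ O_x` iff `f` is the germ of a section over a neighbourhood of `x`. -/
lemma mem_localRing_iff_exists_germ (x : X) (f : X.functionField) :
    f ∈ localRing X x ↔ ∃ (U : X.Opens) (hx : x ∈ U) (s : Γ(X, U)),
      X.presheaf.germ U (genericPoint X) (genericPoint_mem_of_mem X hx) s = f := by
  constructor
  · rintro ⟨s₀, rfl⟩
    obtain ⟨U, hx, s, rfl⟩ := X.presheaf.exists_germ_eq s₀
    exact ⟨U, hx, s, (algebraMap_germ X hx s).symm⟩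
  · rintro ⟨U, hx, s, rfl⟩
    exact ⟨X.presheaf.germ U x hx s, algebraMap_germ X hx s⟩

/-- The domain of definition of a rational function is open. -/
lemma isOpen_setOf_mem_localRing (f : X.functionField) :
    IsOpen {x : X | f ∈ localRing X x} := by
  rw [isOpen_iff_forall_mem_open]
  intro x hx
  obtain ⟨U, hxU, s, rfl⟩ := (mem_localRing_iff_exists_germ X x _).mp hx
  exact ⟨U, fun y hy => (mem_localRing_iff_exists_germ X y _).mpr ⟨U, hy, s, rfl⟩, U.isOpen, hxU⟩

lemma localRing_genericPoint : localRing X (genericPoint X) = ⊤ := by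
  rw [eq_top_iff]
  rintro f -
  refine ⟨f, ?_⟩
  rw [algebraMap_stalk_eq, TopCat.Presheaf.stalkSpecializes_refl]
  rfl

/-- A rational function that is regular at every point of a nonempty open `U` is (the germ of)
a section over `U`. -/
lemma exists_section_of_forall_mem_localRing (U : X.Opens) [Nonempty U] (f : X.functionField)
    (h : ∀ x ∈ U, f ∈ localRing X x) : ∃ s : Γ(X, U), X.germToFunctionField U s = f := by
  classical
  have key : ∀ x : U, ∃ (V : X.Opens) (_ : V ≤ U) (hx : x.1 ∈ V) (s : Γ(X, V)),
      X.presheaf.germ V (genericPoint X) (genericPoint_mem_of_mem X hx) s = f := by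
    intro x
    obtain ⟨W, hxW, s, hs⟩ := (mem_localRing_iff_exists_germ X x.1 f).mp (h x.1 x.2)
    refine ⟨W ⊓ U, inf_le_right, ⟨hxW, x.2⟩, X.presheaf.map (homOfLE inf_le_left).op s, ?_⟩
    rw [← hs]
    exact TopCat.Presheaf.germ_res_apply _ _ _ _ _
  choose V hVU hxV sf hsf using key
  have hcompat : TopCat.Presheaf.IsCompatible X.sheaf.1 V sf := by
    intro i j
    have hne : Nonempty (V i ⊓ V j : X.Opens) :=
      ⟨⟨genericPoint X, genericPoint_mem_of_mem X (hxV i), genericPoint_mem_of_mem X (hxV j)⟩⟩
    have hgm : genericPoint X ∈ V i ⊓ V j :=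
      ⟨genericPoint_mem_of_mem X (hxV i), genericPoint_mem_of_mem X (hxV j)⟩
    apply germ_injective_of_isIntegral X (genericPoint X) hgm
    have h1 : X.presheaf.germ (V i ⊓ V j) (genericPoint X) hgm
        (X.presheaf.map (TopologicalSpace.Opens.infLELeft (V i) (V j)).op (sf i)) = f := by
      rw [← hsf i]
      exact TopCat.Presheaf.germ_res_apply _ _ _ _ _
    have h2 : X.presheaf.germ (V i ⊓ V j) (genericPoint X) hgm
        (X.presheaf.map (TopologicalSpace.Opens.infLERight (V i) (V j)).op (sf j)) = f := by
      rw [← hsf j]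
      exact TopCat.Presheaf.germ_res_apply _ _ _ _ _
    exact h1.trans h2.symm
  have hcover : U ≤ iSup V := by
    intro x hx
    exact TopologicalSpace.Opens.mem_iSup.mpr ⟨⟨x, hx⟩, hxV ⟨x, hx⟩⟩
  obtain ⟨s, hs, -⟩ := X.sheaf.existsUnique_gluing' V U (fun i => homOfLE (hVU i)) hcover sf hcompat
  refine ⟨s, ?_⟩
  obtain ⟨x⟩ := ‹Nonempty U›
  rw [← hsf x, ← hs x]
  exact (TopCat.Presheaf.germ_res_apply _ _ _ _ _).symm

/-! ### Units of the local rings -/

/-- The group `O_x^×` of units of the local ring at `x`, as a subgroup of `K(X)^×`. -/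
noncomputable def unitsAt (x : X) : Subgroup X.functionFieldˣ where
  carrier := {u | (u : X.functionField) ∈ localRing X x ∧
    ((u⁻¹ : X.functionFieldˣ) : X.functionField) ∈ localRing X x}
  mul_mem' := by
    rintro a b ⟨ha, ha'⟩ ⟨hb, hb'⟩
    refine ⟨?_, ?_⟩
    · simpa using mul_mem ha hb
    · have := mul_mem ha' hb'
      simpa [mul_comm] using this
  one_mem' := by
    refine ⟨?_, ?_⟩ <;> simp
  inv_mem' := by
    rintro a ⟨ha, ha'⟩
    exact ⟨ha', by simpa using ha⟩

lemma mem_unitsAt_iff (x : X) (u : X.functionFieldˣ) :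
    u ∈ unitsAt X x ↔ (u : X.functionField) ∈ localRing X x ∧
      ((u⁻¹ : X.functionFieldˣ) : X.functionField) ∈ localRing X x := Iff.rfl

lemma unitsAt_mono {x z : X} (h : z ⤳ x) : unitsAt X x ≤ unitsAt X z :=
  fun _ hu => ⟨localRing_mono X h hu.1, localRing_mono X h hu.2⟩

/-- `u ∈ O_x^×` iff `u` is the image of a unit of the stalk. -/
lemma mem_unitsAt_iff_exists_isUnit (x : X) (u : X.functionFieldˣ) :
    u ∈ unitsAt X x ↔ ∃ s : X.presheaf.stalk x, IsUnit s ∧
      algebraMap (X.presheaf.stalk x) X.functionField s = u := by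
  constructor
  · rintro ⟨⟨s, hs⟩, ⟨t, ht⟩⟩
    refine ⟨s, ?_, hs⟩
    refine IsUnit.of_mul_eq_one t ?_
    apply algebraMap_stalk_injective X x
    rw [map_mul, hs, ht, map_one]
    simp
  · rintro ⟨s, hs, hsu⟩
    refine ⟨⟨s, hsu⟩, ?_⟩
    obtain ⟨v, rfl⟩ := hs
    refine ⟨((v⁻¹ : (X.presheaf.stalk x)ˣ) : X.presheaf.stalk x), ?_⟩
    have h1 : algebraMap (X.presheaf.stalk x) X.functionField (v : X.presheaf.stalk x) *
        algebraMap (X.presheaf.stalk x) X.functionField
          ((v⁻¹ : (X.presheaf.stalk x)ˣ) : X.presheaf.stalk x) = 1 := by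
      rw [← map_mul]; simp
    rw [hsu] at h1
    have h2 : (u : X.functionField) * ((u⁻¹ : X.functionFieldˣ) : X.functionField) = 1 := by simp
    exact (Units.mul_right_inj u).mp (h1.trans h2.symm) |>.symm ▸ rfl

/-- The locus where a nonzero rational function is a unit is open. -/
lemma isOpen_setOf_mem_unitsAt (u : X.functionFieldˣ) : IsOpen {x : X | u ∈ unitsAt X x} := by
  have : {x : X | u ∈ unitsAt X x} = {x : X | (u : X.functionField) ∈ localRing X x} ∩
      {x : X | ((u⁻¹ : X.functionFieldˣ) : X.functionField) ∈ localRing X x} := by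
    ext x; exact Iff.rfl
  rw [this]
  exact (isOpen_setOf_mem_localRing X _).inter (isOpen_setOf_mem_localRing X _)

lemma unitsAt_genericPoint : unitsAt X (genericPoint X) = ⊤ := by
  rw [eq_top_iff]
  rintro u -
  rw [mem_unitsAt_iff, localRing_genericPoint]
  exact ⟨trivial, trivial⟩

/-! ### The stalk as a subring, and pullback of rational functions -/

/-- The ring isomorphism between the stalk at `x` and the local ring inside `K(X)`. -/
noncomputable def stalkEquiv (x : X) : X.presheaf.stalk x ≃+* localRing X x :=
  RingEquiv.ofBijective (algebraMap (X.presheaf.stalk x) X.functionField).rangeRestrict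
    ⟨fun a b h => algebraMap_stalk_injective X x (congrArg Subtype.val h),
      (algebraMap (X.presheaf.stalk x) X.functionField).rangeRestrict_surjective⟩

@[simp] lemma coe_stalkEquiv (x : X) (s : X.presheaf.stalk x) :
    ((stalkEquiv X x s : localRing X x) : X.functionField) =
      algebraMap (X.presheaf.stalk x) X.functionField s := rfl

@[simp] lemma algebraMap_stalkEquiv_symm (x : X) (f : localRing X x) :
    algebraMap (X.presheaf.stalk x) X.functionField ((stalkEquiv X x).symm f) = f := by
  conv_rhs => rw [← (stalkEquiv X x).apply_symm_apply f]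
  rfl

variable {X} {Y : Scheme.{u}} [IsIntegral Y]

/-- Pullback of germs at the image of the generic point of `Y` to rational functions on `Y`. -/
noncomputable def pullbackStalk (φ : Y ⟶ X) :
    X.presheaf.stalk (φ (genericPoint Y)) →+* Y.functionField :=
  (φ.stalkMap (genericPoint Y)).hom

lemma algebraMap_stalkMap (φ : Y ⟶ X) (y : Y) (s : X.presheaf.stalk (φ y)) :
    algebraMap (Y.presheaf.stalk y) Y.functionField (φ.stalkMap y s) =
      pullbackStalk φ (X.presheaf.stalkSpecializes
        (φ.base.hom.map_specializes (genericPoint_specializes Y y)) s) := by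
  rw [algebraMap_stalk_eq]
  exact (Scheme.Hom.stalkSpecializes_stalkMap_apply φ _ _ (genericPoint_specializes Y y) s).symm

/-- Pullback of rational functions on `X` that are regular at the image of the generic point
of `Y`, along an arbitrary morphism `φ : Y ⟶ X` of integral schemes. -/
noncomputable def pullbackFun (φ : Y ⟶ X) :
    localRing X (φ (genericPoint Y)) →+* Y.functionField :=
  (pullbackStalk φ).comp (stalkEquiv X (φ (genericPoint Y))).symm.toRingHom

lemma pullbackFun_apply (φ : Y ⟶ X) (f : localRing X (φ (genericPoint Y))) :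
    pullbackFun φ f = pullbackStalk φ ((stalkEquiv X (φ (genericPoint Y))).symm f) := rfl

lemma pullbackFun_algebraMap (φ : Y ⟶ X) (s : X.presheaf.stalk (φ (genericPoint Y))) :
    pullbackFun φ (stalkEquiv X _ s) = pullbackStalk φ s := by
  rw [pullbackFun_apply, RingEquiv.symm_apply_apply]

lemma map_genericPoint_specializes (φ : Y ⟶ X) (y : Y) : φ (genericPoint Y) ⤳ φ y :=
  φ.base.hom.map_specializes (genericPoint_specializes Y y)

/-- A function regular at `φ y` pulls back to a function regular at `y`. -/
lemma pullbackFun_mem_localRing (φ : Y ⟶ X) (y : Y) (f : localRing X (φ (genericPoint Y)))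
    (hf : (f : X.functionField) ∈ localRing X (φ y)) :
    pullbackFun φ f ∈ localRing Y y := by
  obtain ⟨s, hs⟩ := hf
  refine ⟨φ.stalkMap y s, ?_⟩
  rw [algebraMap_stalkMap, pullbackFun_apply]
  congr 1
  apply algebraMap_stalk_injective X
  rw [algebraMap_stalkSpecializes, hs, algebraMap_stalkEquiv_symm]

/-- The pullback of the germ of a section. -/
lemma pullbackFun_eq_stalkMap (φ : Y ⟶ X) (y : Y) (f : localRing X (φ (genericPoint Y)))
    (s : X.presheaf.stalk (φ y))
    (hs : algebraMap (X.presheaf.stalk (φ y)) X.functionField s = f) :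
    pullbackFun φ f = algebraMap (Y.presheaf.stalk y) Y.functionField (φ.stalkMap y s) := by
  rw [algebraMap_stalkMap, pullbackFun_apply]
  congr 1
  apply algebraMap_stalk_injective X
  rw [algebraMap_stalkSpecializes, hs, algebraMap_stalkEquiv_symm]

/-- Local homomorphism property: a function regular at `φ y` whose pullback is a unit of
`O_y` is a unit of `O_{φ y}`. -/
lemma isUnit_of_pullbackFun (φ : Y ⟶ X) (y : Y) (f : localRing X (φ (genericPoint Y)))
    (s : X.presheaf.stalk (φ y))
    (hs : algebraMap (X.presheaf.stalk (φ y)) X.functionField s = f)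
    (t : Y.presheaf.stalk y) (ht : IsUnit t)
    (hts : algebraMap (Y.presheaf.stalk y) Y.functionField t = pullbackFun φ f) :
    IsUnit s := by
  have h1 : φ.stalkMap y s = t := by
    apply algebraMap_stalk_injective Y
    rw [hts, pullbackFun_eq_stalkMap φ y f s hs]
  have : IsUnit ((φ.stalkMap y).hom s) := h1 ▸ ht
  exact (isUnit_map_iff (φ.stalkMap y).hom s).mp this

end Fermat.Agent.S26.DIV.Bridge5416
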