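import Fermat.Agent.S26.DIV.LocalRing_h2384

/-!
# S26 / DIV: basic API for families of local equations (helper2384)

`Same`, `IsCartier`, `IsEffective`, `LinEquiv`, `LSet`, `InSupp`.
-/

set_option autoImplicit false

universe u

open CategoryTheory AlgebraicGeometry

namespace Fermat.Agent.S26.DIV.H2384

open Fermat.Agent.S26

noncomputable section

variable {X : Scheme.{u}} [IsIntegral X]

/-! ### coercion helpers -/

theorem coe_div_units (a b : (X.functionField)ˣ) :
    ((a / b : (X.functionField)ˣ) : X.functionField) = (a : X.functionField) / (b : X.functionField) :=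
  Units.val_div_eq_div_val a b

/-! ### `Same` -/

theorem same_refl (D : Fam X) : Fam.Same D D := fun x => by
  rw [div_self']; exact isUnitAt_one x

theorem same_symm {D D' : Fam X} (h : Fam.Same D D') : Fam.Same D' D := fun x => by
  have := isUnitAt_inv (h x)
  rwa [← Units.val_inv_eq_inv_val, inv_div] at this

theorem same_trans {D D' D'' : Fam X} (h : Fam.Same D D') (h' : Fam.Same D' D'') :
    Fam.Same D D'' := fun x => by
  have := isUnitAt_mul (h x) (h' x)
  rwa [← Units.val_mul, div_mul_div_cancel] at this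

theorem same_mul {D₁ D₁' D₂ D₂' : Fam X} (h₁ : Fam.Same D₁ D₁') (h₂ : Fam.Same D₂ D₂') :
    Fam.Same (D₁ * D₂) (D₁' * D₂') := fun x => by
  have := isUnitAt_mul (h₁ x) (h₂ x)
  rw [← Units.val_mul] at this
  rwa [Pi.mul_apply, Pi.mul_apply, mul_div_mul_comm]

theorem same_inv {D D' : Fam X} (h : Fam.Same D D') : Fam.Same D⁻¹ D'⁻¹ := fun x => by
  have := isUnitAt_inv (h x)
  rw [← Units.val_inv_eq_inv_val] at this
  rwa [Pi.inv_apply, Pi.inv_apply, inv_div_inv, ← inv_div]

theorem same_div {D₁ D₁' D₂ D₂' : Fam X} (h₁ : Fam.Same D₁ D₁') (h₂ : Fam.Same D₂ D₂') :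
    Fam.Same (D₁ / D₂) (D₁' / D₂') := by
  rw [div_eq_mul_inv, div_eq_mul_inv]; exact same_mul h₁ (same_inv h₂)

theorem same_pow {D D' : Fam X} (h : Fam.Same D D') (k : ℕ) : Fam.Same (D ^ k) (D' ^ k) := fun x => by
  have := isUnitAt_pow (h x) k
  rw [← Units.val_pow_eq_pow_val] at this
  rwa [Pi.pow_apply, Pi.pow_apply, ← div_pow]

theorem same_zpow {D D' : Fam X} (h : Fam.Same D D') (k : ℤ) : Fam.Same (D ^ k) (D' ^ k) := fun x => by
  have := isUnitAt_zpow (h x) k
  rw [← Units.val_zpow_eq_zpow_val] at this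
  rwa [Pi.pow_apply, Pi.pow_apply, ← div_zpow]

/-- `Same D 1` means that all local equations are units. -/
theorem same_one_iff {D : Fam X} : Fam.Same D 1 ↔ ∀ x, IsUnitAt x ((D x : (X.functionField)ˣ) : X.functionField) := by
  constructor
  · intro h x; have := h x; rwa [Pi.one_apply, div_one] at this
  · intro h x; rw [Pi.one_apply, div_one]; exact h x

/-! ### `IsCartier` -/

theorem isCartier_const (f : (X.functionField)ˣ) : Fam.IsCartier (Fam.const f : Fam X) := fun x =>
  ⟨⊤, trivial, fun y _ => by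
    show IsUnitAt y (((f / f : (X.functionField)ˣ)) : X.functionField)
    rw [div_self']; exact isUnitAt_one y⟩

theorem isCartier_one : Fam.IsCartier (1 : Fam X) := isCartier_const 1

theorem isCartier_mul {D D' : Fam X} (h : Fam.IsCartier D) (h' : Fam.IsCartier D') :
    Fam.IsCartier (D * D') := fun x => by
  obtain ⟨U, hxU, hU⟩ := h x
  obtain ⟨U', hxU', hU'⟩ := h' x
  refine ⟨U ⊓ U', ⟨hxU, hxU'⟩, fun y hy => ?_⟩
  have := isUnitAt_mul (hU y hy.1) (hU' y hy.2)
  rw [← Units.val_mul] at this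
  rwa [Pi.mul_apply, Pi.mul_apply, mul_div_mul_comm]

theorem isCartier_inv {D : Fam X} (h : Fam.IsCartier D) : Fam.IsCartier D⁻¹ := fun x => by
  obtain ⟨U, hxU, hU⟩ := h x
  refine ⟨U, hxU, fun y hy => ?_⟩
  have := isUnitAt_inv (hU y hy)
  rw [← Units.val_inv_eq_inv_val] at this
  rwa [Pi.inv_apply, Pi.inv_apply, inv_div_inv, ← inv_div]

theorem isCartier_div {D D' : Fam X} (h : Fam.IsCartier D) (h' : Fam.IsCartier D') :
    Fam.IsCartier (D / D') := by
  rw [div_eq_mul_inv]; exact isCartier_mul h (isCartier_inv h')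

theorem isCartier_pow {D : Fam X} (h : Fam.IsCartier D) (k : ℕ) : Fam.IsCartier (D ^ k) := fun x => by
  obtain ⟨U, hxU, hU⟩ := h x
  refine ⟨U, hxU, fun y hy => ?_⟩
  have := isUnitAt_pow (hU y hy) k
  rw [← Units.val_pow_eq_pow_val] at this
  rwa [Pi.pow_apply, Pi.pow_apply, ← div_pow]

theorem isCartier_zpow {D : Fam X} (h : Fam.IsCartier D) (k : ℤ) : Fam.IsCartier (D ^ k) := fun x => by
  obtain ⟨U, hxU, hU⟩ := h x
  refine ⟨U, hxU, fun y hy => ?_⟩
  have := isUnitAt_zpow (hU y hy) k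
  rw [← Units.val_zpow_eq_zpow_val] at this
  rwa [Pi.pow_apply, Pi.pow_apply, ← div_zpow]

theorem isCartier_of_same {D D' : Fam X} (h : Fam.Same D D') (hD : Fam.IsCartier D) :
    Fam.IsCartier D' := fun x => by
  obtain ⟨U, hxU, hU⟩ := hD x
  have hx := h x
  have hopen := isOpen_setOf_isUnitAt (((D x / D' x : (X.functionField)ˣ)) : X.functionField)
  refine ⟨U ⊓ ⟨_, hopen⟩, ⟨hxU, hx⟩, fun y hy => ?_⟩
  -- D' y / D' x = (D' y / D y) * (D y / D x) * (D x / D' x)
  have h1 := isUnitAt_inv (h y)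
  rw [← Units.val_inv_eq_inv_val, inv_div] at h1
  have h2 := hU y hy.1
  have h3 : IsUnitAt y (((D x / D' x : (X.functionField)ˣ)) : X.functionField) := hy.2
  have := isUnitAt_mul (isUnitAt_mul h1 h2) h3
  rw [← Units.val_mul, ← Units.val_mul] at this
  rwa [div_mul_div_cancel, div_mul_div_cancel] at this

/-- Generization: a local equation at `y` is a local equation at every generization `x ⤳ y`. -/
theorem isCartier_isUnitAt_of_specializes {D : Fam X} (hD : Fam.IsCartier D) {x y : X} (h : x ⤳ y) :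
    IsUnitAt x (((D x / D y : (X.functionField)ˣ)) : X.functionField) := by
  obtain ⟨U, hyU, hU⟩ := hD y
  exact hU x (h.mem_open U.isOpen hyU)

/-! ### `IsEffective` -/

theorem isEffective_one : Fam.IsEffective (1 : Fam X) := fun x => by
  show ((1 : (X.functionField)ˣ) : X.functionField) ∈ localRing X x
  rw [Units.val_one]; exact Subring.one_mem _

theorem isEffective_mul {D D' : Fam X} (h : Fam.IsEffective D) (h' : Fam.IsEffective D') :
    Fam.IsEffective (D * D') := fun x => by
  rw [Pi.mul_apply, Units.val_mul]; exact Subring.mul_mem _ (h x) (h' x)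

theorem isEffective_pow {D : Fam X} (h : Fam.IsEffective D) (k : ℕ) : Fam.IsEffective (D ^ k) :=
  fun x => by
    rw [Pi.pow_apply, Units.val_pow_eq_pow_val]; exact Subring.pow_mem _ (h x) k

theorem isEffective_of_same {D D' : Fam X} (h : Fam.Same D D') (hD : Fam.IsEffective D) :
    Fam.IsEffective D' := fun x => by
  have h1 := (same_symm h x).1
  have := Subring.mul_mem _ h1 (hD x)
  rwa [← Units.val_mul, div_mul_cancel] at this

/-! ### `LinEquiv` -/

theorem linEquiv_of_same {D D' : Fam X} (h : Fam.Same D D') : Fam.LinEquiv D D' :=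
  ⟨1, by
    have : D' * Fam.const (1 : (X.functionField)ˣ) = D' := by
      funext x; simp [Fam.const]
    rw [this]; exact h⟩

theorem linEquiv_refl (D : Fam X) : Fam.LinEquiv D D := linEquiv_of_same (same_refl D)

theorem const_mul_const (f g : (X.functionField)ˣ) :
    (Fam.const f * Fam.const g : Fam X) = Fam.const (f * g) := rfl

theorem const_inv (f : (X.functionField)ˣ) : ((Fam.const f)⁻¹ : Fam X) = Fam.const f⁻¹ := rfl

theorem const_one : (Fam.const 1 : Fam X) = 1 := rfl

theorem const_pow (f : (X.functionField)ˣ) (k : ℕ) : ((Fam.const f) ^ k : Fam X) = Fam.const (f ^ k) := rfl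

theorem linEquiv_symm {D D' : Fam X} (h : Fam.LinEquiv D D') : Fam.LinEquiv D' D := by
  obtain ⟨f, hf⟩ := h
  refine ⟨f⁻¹, ?_⟩
  have := same_mul (same_symm hf) (same_refl (Fam.const f⁻¹))
  rwa [mul_assoc, const_mul_const, mul_inv_cancel, const_one, mul_one] at this

theorem linEquiv_trans {D D' D'' : Fam X} (h : Fam.LinEquiv D D') (h' : Fam.LinEquiv D' D'') :
    Fam.LinEquiv D D'' := by
  obtain ⟨f, hf⟩ := h
  obtain ⟨f', hf'⟩ := h'
  refine ⟨f' * f, ?_⟩
  have := same_trans hf (same_mul hf' (same_refl (Fam.const f)))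
  rwa [mul_assoc, const_mul_const] at this

theorem linEquiv_mul {D₁ D₁' D₂ D₂' : Fam X} (h₁ : Fam.LinEquiv D₁ D₁') (h₂ : Fam.LinEquiv D₂ D₂') :
    Fam.LinEquiv (D₁ * D₂) (D₁' * D₂') := by
  obtain ⟨f₁, hf₁⟩ := h₁
  obtain ⟨f₂, hf₂⟩ := h₂
  refine ⟨f₁ * f₂, ?_⟩
  have := same_mul hf₁ hf₂
  rwa [mul_mul_mul_comm, const_mul_const] at this

theorem linEquiv_inv {D D' : Fam X} (h : Fam.LinEquiv D D') : Fam.LinEquiv D⁻¹ D'⁻¹ := by
  obtain ⟨f, hf⟩ := h
  refine ⟨f⁻¹, ?_⟩
  have := same_inv hf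
  rwa [mul_inv, const_inv] at this

theorem linEquiv_div {D₁ D₁' D₂ D₂' : Fam X} (h₁ : Fam.LinEquiv D₁ D₁') (h₂ : Fam.LinEquiv D₂ D₂') :
    Fam.LinEquiv (D₁ / D₂) (D₁' / D₂') := by
  rw [div_eq_mul_inv, div_eq_mul_inv]; exact linEquiv_mul h₁ (linEquiv_inv h₂)

theorem linEquiv_pow {D D' : Fam X} (h : Fam.LinEquiv D D') (k : ℕ) :
    Fam.LinEquiv (D ^ k) (D' ^ k) := by
  obtain ⟨f, hf⟩ := h
  refine ⟨f ^ k, ?_⟩
  have := same_pow hf k
  rwa [mul_pow, const_pow] at this

/-- A principal divisor is linearly equivalent to `0`. -/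
theorem linEquiv_const_one (f : (X.functionField)ˣ) : Fam.LinEquiv (Fam.const f : Fam X) 1 :=
  ⟨f, by rw [one_mul]; exact same_refl _⟩

theorem linEquiv_one_iff {D : Fam X} :
    Fam.LinEquiv D 1 ↔ ∃ f : (X.functionField)ˣ, Fam.Same D (Fam.const f) := by
  constructor
  · rintro ⟨f, hf⟩; exact ⟨f, by rwa [one_mul] at hf⟩
  · rintro ⟨f, hf⟩; exact ⟨f, by rwa [one_mul]⟩

theorem linEquiv_mul_const (D : Fam X) (f : (X.functionField)ˣ) :
    Fam.LinEquiv (D * Fam.const f) D := ⟨f, same_refl _⟩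

/-! ### `LSet` -/

theorem mem_LSet {D : Fam X} {f : X.functionField} :
    f ∈ D.LSet ↔ ∀ x : X, f * ((D x : (X.functionField)ˣ) : X.functionField) ∈ localRing X x :=
  Iff.rfl

theorem zero_mem_LSet (D : Fam X) : (0 : X.functionField) ∈ D.LSet := fun x => by
  rw [zero_mul]; exact Subring.zero_mem _

theorem add_mem_LSet {D : Fam X} {f g : X.functionField} (hf : f ∈ D.LSet) (hg : g ∈ D.LSet) :
    f + g ∈ D.LSet := fun x => by
  rw [add_mul]; exact Subring.add_mem _ (hf x) (hg x)

theorem neg_mem_LSet {D : Fam X} {f : X.functionField} (hf : f ∈ D.LSet) : -f ∈ D.LSet := fun x => by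
  rw [neg_mul]; exact Subring.neg_mem _ (hf x)

theorem mul_mem_LSet {D D' : Fam X} {f g : X.functionField} (hf : f ∈ D.LSet) (hg : g ∈ D'.LSet) :
    f * g ∈ (D * D').LSet := fun x => by
  rw [Pi.mul_apply, Units.val_mul, mul_mul_mul_comm]
  exact Subring.mul_mem _ (hf x) (hg x)

theorem pow_mem_LSet {D : Fam X} {f : X.functionField} (hf : f ∈ D.LSet) (k : ℕ) :
    f ^ k ∈ (D ^ k).LSet := fun x => by
  rw [Pi.pow_apply, Units.val_pow_eq_pow_val, ← mul_pow]
  exact Subring.pow_mem _ (hf x) k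

theorem one_mem_LSet_iff {D : Fam X} : (1 : X.functionField) ∈ D.LSet ↔ Fam.IsEffective D := by
  constructor
  · intro h x; have := h x; rwa [one_mul] at this
  · intro h x; rw [one_mul]; exact h x

theorem LSet_one : (1 : Fam X).LSet = {f | ∀ x : X, f ∈ localRing X x} := by
  ext f
  constructor
  · intro h x; have := h x; rwa [Pi.one_apply, Units.val_one, mul_one] at this
  · intro h x; rw [Pi.one_apply, Units.val_one, mul_one]; exact h x

theorem LSet_eq_of_same {D D' : Fam X} (h : Fam.Same D D') : D.LSet = D'.LSet := by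
  have key : ∀ {E E' : Fam X}, Fam.Same E E' → E.LSet ⊆ E'.LSet := by
    intro E E' hEE' f hf x
    have h1 := (same_symm hEE' x).1
    have := Subring.mul_mem _ (hf x) h1
    rwa [mul_assoc, ← Units.val_mul, mul_div_cancel] at this
  exact Set.Subset.antisymm (key h) (key (same_symm h))

theorem mem_LSet_mul_const {D : Fam X} {h : (X.functionField)ˣ} {f : X.functionField} :
    f ∈ (D * Fam.const h).LSet ↔ f * (h : X.functionField) ∈ D.LSet := by
  constructor
  · intro hf x
    have := hf x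
    rw [Pi.mul_apply, Units.val_mul] at this
    show f * (h : X.functionField) * _ ∈ _
    rw [mul_right_comm, mul_assoc]; exact this
  · intro hf x
    have := hf x
    rw [Pi.mul_apply, Units.val_mul]
    show f * (_ * (h : X.functionField)) ∈ _
    rw [← mul_assoc, mul_right_comm]; exact this

/-- If `D` is effective then `L(D') ⊆ L(D' + D)`. -/
theorem LSet_subset_mul_of_isEffective {D D' : Fam X} (hD : Fam.IsEffective D) :
    D'.LSet ⊆ (D' * D).LSet := fun f hf => by
  have := mul_mem_LSet hf (one_mem_LSet_iff.mpr hD)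
  rwa [mul_one] at this

/-! ### `InSupp` -/

theorem not_inSupp_iff {D : Fam X} {x : X} :
    ¬ D.InSupp x ↔ IsUnitAt x ((D x : (X.functionField)ˣ) : X.functionField) := not_not

theorem inSupp_congr {D D' : Fam X} (h : Fam.Same D D') (x : X) : D.InSupp x ↔ D'.InSupp x := by
  have key : ∀ {E E' : Fam X}, Fam.Same E E' → ¬ E.InSupp x → ¬ E'.InSupp x := by
    intro E E' hEE' hE
    rw [not_inSupp_iff] at hE ⊢
    have := isUnitAt_mul (same_symm hEE' x) hE
    rwa [← Units.val_mul, div_mul_cancel] at this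
  exact not_iff_not.mp ⟨key h, key (same_symm h)⟩

/-- The support of a Cartier divisor is closed. -/
theorem isClosed_setOf_inSupp {D : Fam X} (hD : Fam.IsCartier D) : IsClosed {x : X | D.InSupp x} := by
  rw [← isOpen_compl_iff, isOpen_iff_forall_mem_open]
  intro x hx
  have hx' : IsUnitAt x ((D x : (X.functionField)ˣ) : X.functionField) := not_inSupp_iff.mp hx
  obtain ⟨U, hxU, hU⟩ := hD x
  have hopen := isOpen_setOf_isUnitAt ((D x : (X.functionField)ˣ) : X.functionField)
  refine ⟨U.1 ∩ {y | IsUnitAt y ((D x : (X.functionField)ˣ) : X.functionField)}, ?_,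
    U.isOpen.inter hopen, ⟨hxU, hx'⟩⟩
  rintro y ⟨hyU, hy⟩
  show ¬ D.InSupp y
  rw [not_inSupp_iff]
  have := isUnitAt_mul (hU y hyU) hy
  rwa [← Units.val_mul, div_mul_cancel] at this

/-- The generic point is never in the support. -/
theorem not_inSupp_genericPoint (D : Fam X) : ¬ D.InSupp (genericPoint X) :=
  not_inSupp_iff.mpr (isUnitAt_genericPoint _)

theorem not_inSupp_of_specializes {D : Fam X} (hD : Fam.IsCartier D) {x y : X} (h : x ⤳ y)
    (hy : ¬ D.InSupp y) : ¬ D.InSupp x := by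
  rw [not_inSupp_iff] at hy ⊢
  have := isUnitAt_mul (isCartier_isUnitAt_of_specializes hD h) (isUnitAt_of_specializes h hy)
  rwa [← Units.val_mul, div_mul_cancel] at this

end

end Fermat.Agent.S26.DIV.H2384
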