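import Fermat.Agent.S26.Defs

/-!
# S26 / DIV: basic API for `localRing`, `IsUnitAt` (helper2384)
-/

set_option autoImplicit false

universe u

open CategoryTheory AlgebraicGeometry

namespace Fermat.Agent.S26.DIV.H2384

open Fermat.Agent.S26

noncomputable section

variable {X : Scheme.{u}} [IsIntegral X]

theorem genericPoint_specializes (x : X) : genericPoint X ⤳ x :=
  (genericPoint_spec X).specializes trivial

theorem algebraMap_stalk_eq (x : X) :
    algebraMap (X.presheaf.stalk x) X.functionField =
      (X.presheaf.stalkSpecializes (genericPoint_specializes x)).hom := rfl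

theorem mem_localRing_iff {x : X} {u : X.functionField} :
    u ∈ localRing X x ↔ ∃ a : X.presheaf.stalk x, algebraMap (X.presheaf.stalk x) X.functionField a = u :=
  Iff.rfl

theorem algebraMap_mem_localRing (x : X) (a : X.presheaf.stalk x) :
    algebraMap (X.presheaf.stalk x) X.functionField a ∈ localRing X x := ⟨a, rfl⟩

theorem algebraMap_stalk_injective (x : X) :
    Function.Injective (algebraMap (X.presheaf.stalk x) X.functionField) :=
  IsFractionRing.injective _ _

/-- Generization: if `x ⤳ y` then `O_y ⊆ O_x`. -/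
theorem localRing_le_of_specializes {x y : X} (h : x ⤳ y) : localRing X y ≤ localRing X x := by
  rintro u ⟨a, rfl⟩
  refine ⟨X.presheaf.stalkSpecializes h a, ?_⟩
  rw [algebraMap_stalk_eq, algebraMap_stalk_eq]
  have := TopCat.Presheaf.stalkSpecializes_comp X.presheaf (genericPoint_specializes x) h
  exact congrArg (fun f => f.hom a) this

theorem germToFunctionField_mem_localRing {U : X.Opens} [Nonempty U] {x : X} (hx : x ∈ U)
    (f : Γ(X, U)) : X.germToFunctionField U f ∈ localRing X x :=
  ⟨X.presheaf.germ U x hx f, Scheme.algebraMap_germ_eq_germToFunctionField X hx f⟩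

theorem exists_germ_of_mem_localRing {x : X} {u : X.functionField} (hu : u ∈ localRing X x) :
    ∃ (U : X.Opens) (hx : x ∈ U) (f : Γ(X, U)),
      X.germToFunctionField U (h := ⟨⟨x, hx⟩⟩) f = u := by
  obtain ⟨a, rfl⟩ := hu
  obtain ⟨U, hx, f, rfl⟩ := X.presheaf.exists_germ_eq a
  refine ⟨U, hx, f, ?_⟩
  have : Nonempty U := ⟨⟨x, hx⟩⟩
  exact (Scheme.algebraMap_germ_eq_germToFunctionField X hx f).symm

/-- The domain of definition of a rational function is open. -/
theorem isOpen_setOf_mem_localRing (u : X.functionField) : IsOpen {x : X | u ∈ localRing X x} := by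
  rw [isOpen_iff_forall_mem_open]
  intro x hx
  obtain ⟨U, hxU, f, rfl⟩ := exists_germ_of_mem_localRing hx
  have : Nonempty U := ⟨⟨x, hxU⟩⟩
  exact ⟨U, fun y hy => germToFunctionField_mem_localRing hy f, U.isOpen, hxU⟩

theorem localRing_genericPoint : localRing X (genericPoint X) = ⊤ := by
  rw [eq_top_iff]
  intro u _
  refine ⟨u, ?_⟩
  rw [algebraMap_stalk_eq]
  simp

/-! ### `IsUnitAt` -/

theorem isUnitAt_one (x : X) : IsUnitAt x (1 : X.functionField) :=
  ⟨Subring.one_mem _, by rw [inv_one]; exact Subring.one_mem _⟩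

theorem isUnitAt_mul {x : X} {u v : X.functionField} (hu : IsUnitAt x u) (hv : IsUnitAt x v) :
    IsUnitAt x (u * v) :=
  ⟨Subring.mul_mem _ hu.1 hv.1, by rw [mul_inv]; exact Subring.mul_mem _ hu.2 hv.2⟩

theorem isUnitAt_inv {x : X} {u : X.functionField} (hu : IsUnitAt x u) : IsUnitAt x u⁻¹ :=
  ⟨hu.2, by rw [inv_inv]; exact hu.1⟩

theorem isUnitAt_div {x : X} {u v : X.functionField} (hu : IsUnitAt x u) (hv : IsUnitAt x v) :
    IsUnitAt x (u / v) := by
  rw [div_eq_mul_inv]; exact isUnitAt_mul hu (isUnitAt_inv hv)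

theorem isUnitAt_pow {x : X} {u : X.functionField} (hu : IsUnitAt x u) (k : ℕ) :
    IsUnitAt x (u ^ k) :=
  ⟨Subring.pow_mem _ hu.1 k, by rw [← inv_pow]; exact Subring.pow_mem _ hu.2 k⟩

theorem isUnitAt_zpow {x : X} {u : X.functionField} (hu : IsUnitAt x u) (k : ℤ) :
    IsUnitAt x (u ^ k) := by
  cases k with
  | ofNat k => simpa using isUnitAt_pow hu k
  | negSucc k => simpa [zpow_negSucc] using isUnitAt_inv (isUnitAt_pow hu (k + 1))

theorem isUnitAt_inv_iff {x : X} {u : X.functionField} : IsUnitAt x u⁻¹ ↔ IsUnitAt x u :=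
  ⟨fun h => by simpa using isUnitAt_inv h, isUnitAt_inv⟩

theorem isUnitAt_of_specializes {x y : X} (h : x ⤳ y) {u : X.functionField}
    (hu : IsUnitAt y u) : IsUnitAt x u :=
  ⟨localRing_le_of_specializes h hu.1, localRing_le_of_specializes h hu.2⟩

theorem isUnitAt_genericPoint (u : X.functionField) : IsUnitAt (genericPoint X) u := by
  constructor <;> rw [localRing_genericPoint] <;> trivial

/-- The locus where a rational function is a unit is open. -/
theorem isOpen_setOf_isUnitAt (u : X.functionField) : IsOpen {x : X | IsUnitAt x u} := by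
  have : {x : X | IsUnitAt x u} = {x | u ∈ localRing X x} ∩ {x | u⁻¹ ∈ localRing X x} := rfl
  rw [this]
  exact (isOpen_setOf_mem_localRing u).inter (isOpen_setOf_mem_localRing u⁻¹)

/-- A unit of the local ring in the sense of `IsUnitAt` comes from a unit of the stalk. -/
theorem isUnitAt_exists_unit {x : X} {u : X.functionField} (hu : IsUnitAt x u) (h0 : u ≠ 0) :
    ∃ a : (X.presheaf.stalk x)ˣ, algebraMap (X.presheaf.stalk x) X.functionField a = u := by
  obtain ⟨a, ha⟩ := hu.1
  obtain ⟨b, hb⟩ := hu.2
  have hab : a * b = 1 := by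
    apply algebraMap_stalk_injective x
    rw [map_mul, ha, hb, map_one, mul_inv_cancel₀ h0]
  exact ⟨⟨a, b, hab, by rw [mul_comm]; exact hab⟩, ha⟩

theorem isUnitAt_algebraMap_of_isUnit {x : X} {a : X.presheaf.stalk x} (ha : IsUnit a) :
    IsUnitAt x (algebraMap (X.presheaf.stalk x) X.functionField a) := by
  obtain ⟨a, rfl⟩ := ha
  refine ⟨⟨a, rfl⟩, ⟨(a⁻¹ : (X.presheaf.stalk x)ˣ), ?_⟩⟩
  rw [eq_comm, inv_eq_iff_eq_inv, eq_comm]
  rw [← map_units_inv]
  simp

/-- An element of the local ring which is not a unit of it lies in the maximal ideal; stated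
through the stalk. -/
theorem isUnitAt_algebraMap_iff {x : X} {a : X.presheaf.stalk x} :
    IsUnitAt x (algebraMap (X.presheaf.stalk x) X.functionField a) ↔ IsUnit a ∨ a = 0 := by
  constructor
  · intro h
    by_cases h0 : a = 0
    · exact Or.inr h0
    · left
      have h0' : algebraMap (X.presheaf.stalk x) X.functionField a ≠ 0 := by
        intro h'
        exact h0 (algebraMap_stalk_injective x (by rw [h', map_zero]))
      obtain ⟨b, hb⟩ := isUnitAt_exists_unit h h0'
      have := algebraMap_stalk_injective x hb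
      rw [← this]; exact b.isUnit
  · rintro (h | rfl)
    · exact isUnitAt_algebraMap_of_isUnit h
    · rw [map_zero]; exact ⟨Subring.zero_mem _, by rw [inv_zero]; exact Subring.zero_mem _⟩

end

end Fermat.Agent.S26.DIV.H2384
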