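import Fermat.Agent.S26.DIV.PullFun_h2384

/-!
# S26 / DIV: basic API for `Fam.pullback` and `Fam.pullc` (helper2384)

Throughout, `φ : Y ⟶ X` is a morphism of integral schemes and `ξ = φ(η_Y)`.  A family `D` is in
"good position" for `φ` when it is Cartier and `ξ ∉ Supp D`.
-/

set_option autoImplicit false

universe u

open CategoryTheory AlgebraicGeometry

namespace Fermat.Agent.S26.DIV.H2384

open Fermat.Agent.S26

noncomputable section

/-! ### `toUnit` -/

section ToUnit

variable {F : Type u} [Field F]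

theorem toUnit_val {v : F} (hv : v ≠ 0) : ((toUnit v : Fˣ) : F) = v := by
  unfold toUnit; rw [dif_neg hv]; rfl

theorem toUnit_zero : toUnit (0 : F) = 1 := by
  unfold toUnit; rw [dif_pos rfl]

theorem toUnit_coe (a : Fˣ) : toUnit (a : F) = a :=
  Units.ext (toUnit_val a.ne_zero)

theorem toUnit_one : toUnit (1 : F) = 1 := by
  have := toUnit_coe (1 : Fˣ); rwa [Units.val_one] at this

theorem toUnit_mul {u v : F} (hu : u ≠ 0) (hv : v ≠ 0) : toUnit (u * v) = toUnit u * toUnit v :=
  Units.ext (by rw [toUnit_val (mul_ne_zero hu hv), Units.val_mul, toUnit_val hu, toUnit_val hv])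

theorem toUnit_inv (u : F) : toUnit u⁻¹ = (toUnit u)⁻¹ := by
  by_cases hu : u = 0
  · subst hu; rw [inv_zero, toUnit_zero, inv_one]
  · exact Units.ext (by rw [toUnit_val (inv_ne_zero hu), Units.val_inv_eq_inv_val, toUnit_val hu])

theorem toUnit_div {u v : F} (hu : u ≠ 0) (hv : v ≠ 0) : toUnit (u / v) = toUnit u / toUnit v := by
  rw [div_eq_mul_inv, toUnit_mul hu (inv_ne_zero hv), toUnit_inv, div_eq_mul_inv]

theorem toUnit_pow {u : F} (hu : u ≠ 0) (k : ℕ) : toUnit (u ^ k) = toUnit u ^ k :=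
  Units.ext (by rw [toUnit_val (pow_ne_zero k hu), Units.val_pow_eq_pow_val, toUnit_val hu])

end ToUnit

variable {X Y Z : Scheme.{u}} [IsIntegral X] [IsIntegral Y] [IsIntegral Z]

/-! ### good position -/

/-- If `D` is Cartier and `φ(η_Y) ∉ Supp D` then every local equation `D (φ y)` is a unit at
`φ(η_Y)`. -/
theorem isUnitAt_map_genericPoint (φ : Y ⟶ X) {D : Fam X} (hD : Fam.IsCartier D)
    (hξ : ¬ D.InSupp (φ.base (genericPoint Y))) (y : Y) :
    IsUnitAt (φ.base (genericPoint Y)) ((D (φ.base y) : (X.functionField)ˣ) : X.functionField) := by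
  have h1 := isCartier_isUnitAt_of_specializes hD (map_genericPoint_specializes φ y)
  have h2 := not_inSupp_iff.mp hξ
  have := isUnitAt_mul (isUnitAt_inv h1) h2
  rwa [← Units.val_inv_eq_inv_val, inv_div, ← Units.val_mul, div_mul_cancel] at this

theorem pullFun_apply_ne_zero (φ : Y ⟶ X) {D : Fam X} (hD : Fam.IsCartier D)
    (hξ : ¬ D.InSupp (φ.base (genericPoint Y))) (y : Y) :
    pullFun φ ((D (φ.base y) : (X.functionField)ˣ) : X.functionField) ≠ 0 :=
  pullFun_ne_zero φ (isUnitAt_map_genericPoint φ hD hξ y) (Units.ne_zero _)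

/-- In good position the pullback family consists of the pulled back local equations. -/
theorem pullback_apply_val (φ : Y ⟶ X) {D : Fam X} (hD : Fam.IsCartier D)
    (hξ : ¬ D.InSupp (φ.base (genericPoint Y))) (y : Y) :
    ((Fam.pullback φ D y : (Y.functionField)ˣ) : Y.functionField) =
      pullFun φ ((D (φ.base y) : (X.functionField)ˣ) : X.functionField) :=
  toUnit_val (pullFun_apply_ne_zero φ hD hξ y)

theorem pullback_apply (φ : Y ⟶ X) (D : Fam X) (y : Y) :
    Fam.pullback φ D y = toUnit (pullFun φ ((D (φ.base y) : (X.functionField)ˣ) : X.functionField)) :=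
  rfl

/-! ### algebra of `pullback` -/

theorem pullback_one (φ : Y ⟶ X) : Fam.pullback φ (1 : Fam X) = 1 := by
  funext y
  rw [pullback_apply, Pi.one_apply, Units.val_one, pullFun_one, toUnit_one, Pi.one_apply]

theorem pullback_mul (φ : Y ⟶ X) {D D' : Fam X} (hD : Fam.IsCartier D) (hD' : Fam.IsCartier D')
    (hξ : ¬ D.InSupp (φ.base (genericPoint Y))) (hξ' : ¬ D'.InSupp (φ.base (genericPoint Y))) :
    Fam.pullback φ (D * D') = Fam.pullback φ D * Fam.pullback φ D' := by
  funext y
  rw [Pi.mul_apply, pullback_apply, pullback_apply, pullback_apply, Pi.mul_apply, Units.val_mul,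
    pullFun_mul φ (isUnitAt_map_genericPoint φ hD hξ y).1 (isUnitAt_map_genericPoint φ hD' hξ' y).1,
    toUnit_mul (pullFun_apply_ne_zero φ hD hξ y) (pullFun_apply_ne_zero φ hD' hξ' y)]

theorem pullback_inv (φ : Y ⟶ X) {D : Fam X} (hD : Fam.IsCartier D)
    (hξ : ¬ D.InSupp (φ.base (genericPoint Y))) :
    Fam.pullback φ D⁻¹ = (Fam.pullback φ D)⁻¹ := by
  funext y
  rw [Pi.inv_apply, pullback_apply, pullback_apply, Pi.inv_apply, Units.val_inv_eq_inv_val,
    pullFun_inv φ (isUnitAt_map_genericPoint φ hD hξ y), toUnit_inv]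

theorem pullback_pow (φ : Y ⟶ X) {D : Fam X} (hD : Fam.IsCartier D)
    (hξ : ¬ D.InSupp (φ.base (genericPoint Y))) (k : ℕ) :
    Fam.pullback φ (D ^ k) = (Fam.pullback φ D) ^ k := by
  funext y
  rw [Pi.pow_apply, pullback_apply, pullback_apply, Pi.pow_apply, Units.val_pow_eq_pow_val,
    pullFun_pow φ (isUnitAt_map_genericPoint φ hD hξ y).1, toUnit_pow (pullFun_apply_ne_zero φ hD hξ y)]

theorem pullback_const (φ : Y ⟶ X) (f : (X.functionField)ˣ) :
    Fam.pullback φ (Fam.const f) = Fam.const (toUnit (pullFun φ (f : X.functionField))) := rfl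

/-! ### supports in good position -/

theorem inSupp_inv_iff {D : Fam X} {x : X} : D⁻¹.InSupp x ↔ D.InSupp x := by
  unfold Fam.InSupp
  rw [Pi.inv_apply, Units.val_inv_eq_inv_val, isUnitAt_inv_iff]

theorem not_inSupp_mul {D D' : Fam X} {x : X} (h : ¬ D.InSupp x) (h' : ¬ D'.InSupp x) :
    ¬ (D * D').InSupp x := by
  rw [not_inSupp_iff] at h h' ⊢
  rw [Pi.mul_apply, Units.val_mul]; exact isUnitAt_mul h h'

theorem not_inSupp_pow {D : Fam X} {x : X} (h : ¬ D.InSupp x) (k : ℕ) : ¬ (D ^ k).InSupp x := by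
  rw [not_inSupp_iff] at h ⊢
  rw [Pi.pow_apply, Units.val_pow_eq_pow_val]; exact isUnitAt_pow h k

theorem not_inSupp_const_iff {f : (X.functionField)ˣ} {x : X} :
    ¬ (Fam.const f : Fam X).InSupp x ↔ IsUnitAt x (f : X.functionField) := not_inSupp_iff

/-! ### Cartier, Same, effective under `pullback` -/

theorem pullback_isCartier (φ : Y ⟶ X) {D : Fam X} (hD : Fam.IsCartier D)
    (hξ : ¬ D.InSupp (φ.base (genericPoint Y))) : Fam.IsCartier (Fam.pullback φ D) := by
  intro y
  obtain ⟨U, hyU, hU⟩ := hD (φ.base y)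
  refine ⟨φ ⁻¹ᵁ U, hyU, fun y' hy' => ?_⟩
  have h := isUnitAt_pullFun φ y' (hU (φ.base y') hy')
  rw [coe_div_units, pullFun_div φ (isUnitAt_map_genericPoint φ hD hξ y').1
    (isUnitAt_map_genericPoint φ hD hξ y)] at h
  rw [coe_div_units, pullback_apply_val φ hD hξ, pullback_apply_val φ hD hξ]
  exact h

theorem pullback_same (φ : Y ⟶ X) {D D' : Fam X} (hD : Fam.IsCartier D)
    (hξ : ¬ D.InSupp (φ.base (genericPoint Y))) (h : Fam.Same D D') :
    Fam.Same (Fam.pullback φ D) (Fam.pullback φ D') := by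
  have hD' : Fam.IsCartier D' := isCartier_of_same h hD
  have hξ' : ¬ D'.InSupp (φ.base (genericPoint Y)) := (inSupp_congr h _).not.mp hξ
  intro y
  have h1 := isUnitAt_pullFun φ y (h (φ.base y))
  rw [coe_div_units, pullFun_div φ (isUnitAt_map_genericPoint φ hD hξ y).1
    (isUnitAt_map_genericPoint φ hD' hξ' y)] at h1
  rw [coe_div_units, pullback_apply_val φ hD hξ, pullback_apply_val φ hD' hξ']
  exact h1

theorem pullback_isEffective (φ : Y ⟶ X) {D : Fam X} (hD : Fam.IsCartier D)
    (hξ : ¬ D.InSupp (φ.base (genericPoint Y))) (he : Fam.IsEffective D) :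
    Fam.IsEffective (Fam.pullback φ D) := fun y => by
  rw [pullback_apply_val φ hD hξ]
  exact pullFun_mem_localRing φ y (he (φ.base y))

theorem not_inSupp_pullback (φ : Y ⟶ X) {D : Fam X} (hD : Fam.IsCartier D)
    (hξ : ¬ D.InSupp (φ.base (genericPoint Y))) {y : Y} (hy : ¬ D.InSupp (φ.base y)) :
    ¬ (Fam.pullback φ D).InSupp y := by
  rw [not_inSupp_iff] at hy ⊢
  rw [pullback_apply_val φ hD hξ]
  exact isUnitAt_pullFun φ y hy

/-- Sections pull back to sections (for instance when `φ` is dominant, where the regularity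
hypothesis on `f` is automatic). -/
theorem pullFun_mem_LSet (φ : Y ⟶ X) {D : Fam X} (hD : Fam.IsCartier D)
    (hξ : ¬ D.InSupp (φ.base (genericPoint Y))) {f : X.functionField}
    (hf : f ∈ localRing X (φ.base (genericPoint Y))) (hfD : f ∈ D.LSet) :
    pullFun φ f ∈ (Fam.pullback φ D).LSet := fun y => by
  rw [pullback_apply_val φ hD hξ, ← pullFun_mul φ hf (isUnitAt_map_genericPoint φ hD hξ y).1]
  exact pullFun_mem_localRing φ y (hfD (φ.base y))

/-! ### functoriality of `pullback` -/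

theorem pullback_id (D : Fam X) : Fam.pullback (𝟙 X) D = D := by
  funext x
  rw [pullback_apply, pullFun_id]
  exact toUnit_coe _

theorem pullback_comp (ψ : Z ⟶ Y) (φ : Y ⟶ X) {D : Fam X} (hD : Fam.IsCartier D)
    (hζ : ¬ D.InSupp (φ.base (ψ.base (genericPoint Z)))) :
    Fam.pullback (ψ ≫ φ) D = Fam.pullback ψ (Fam.pullback φ D) := by
  have hξ : ¬ D.InSupp (φ.base (genericPoint Y)) :=
    not_inSupp_of_specializes hD (map_genericPoint_specializes φ _) hζ
  funext z
  rw [pullback_apply, pullback_apply]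
  congr 1
  have hu : ((D (φ.base (ψ.base z)) : (X.functionField)ˣ) : X.functionField) ∈
      localRing X (φ.base (ψ.base (genericPoint Z))) :=
    (isUnitAt_map_genericPoint (ψ ≫ φ) hD hζ z).1
  rw [pullback_apply_val φ hD hξ]
  exact pullFun_comp ψ φ hu

/-! ### `pullc`: class-level pullback -/

theorem pullc_def (φ : Y ⟶ X) (D : Fam X) :
    Fam.pullc φ D = Fam.pullback φ (D * (Fam.const (D (φ.base (genericPoint Y))))⁻¹) := rfl

/-- The moved family `D - div(D ξ)`. -/
theorem isCartier_moved (D : Fam X) (hD : Fam.IsCartier D) (f : (X.functionField)ˣ) :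
    Fam.IsCartier (D * (Fam.const f)⁻¹) :=
  isCartier_mul hD (isCartier_inv (isCartier_const f))

theorem not_inSupp_moved (D : Fam X) (x : X) : ¬ (D * (Fam.const (D x))⁻¹).InSupp x := by
  rw [not_inSupp_iff, Pi.mul_apply, Pi.inv_apply]
  show IsUnitAt x (((D x * (D x)⁻¹ : (X.functionField)ˣ)) : X.functionField)
  rw [mul_inv_cancel, Units.val_one]; exact isUnitAt_one x

theorem pullc_isCartier (φ : Y ⟶ X) {D : Fam X} (hD : Fam.IsCartier D) :
    Fam.IsCartier (Fam.pullc φ D) :=
  pullback_isCartier φ (isCartier_moved D hD _) (not_inSupp_moved D _)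

theorem pullc_one (φ : Y ⟶ X) : Fam.pullc φ (1 : Fam X) = 1 := by
  rw [pullc_def]
  have : (1 : Fam X) * (Fam.const ((1 : Fam X) (φ.base (genericPoint Y))))⁻¹ = 1 := by
    funext x; simp [Fam.const]
  rw [this, pullback_one]

theorem pullc_const (φ : Y ⟶ X) (f : (X.functionField)ˣ) : Fam.pullc φ (Fam.const f) = 1 := by
  rw [pullc_def]
  have : (Fam.const f : Fam X) * (Fam.const ((Fam.const f : Fam X) (φ.base (genericPoint Y))))⁻¹ = 1 := by
    funext x; simp [Fam.const]
  rw [this, pullback_one]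

theorem pullc_mul (φ : Y ⟶ X) {D D' : Fam X} (hD : Fam.IsCartier D) (hD' : Fam.IsCartier D') :
    Fam.pullc φ (D * D') = Fam.pullc φ D * Fam.pullc φ D' := by
  rw [pullc_def, pullc_def, pullc_def,
    ← pullback_mul φ (isCartier_moved D hD _) (isCartier_moved D' hD' _) (not_inSupp_moved D _)
      (not_inSupp_moved D' _)]
  congr 1
  funext x
  simp only [Pi.mul_apply, Pi.inv_apply, Fam.const]
  rw [mul_inv, mul_mul_mul_comm]

theorem pullc_inv (φ : Y ⟶ X) {D : Fam X} (hD : Fam.IsCartier D) :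
    Fam.pullc φ D⁻¹ = (Fam.pullc φ D)⁻¹ := by
  rw [pullc_def, pullc_def, ← pullback_inv φ (isCartier_moved D hD _) (not_inSupp_moved D _)]
  congr 1
  funext x
  simp only [Pi.mul_apply, Pi.inv_apply, Fam.const]
  rw [mul_inv]

theorem pullc_pow (φ : Y ⟶ X) {D : Fam X} (hD : Fam.IsCartier D) (k : ℕ) :
    Fam.pullc φ (D ^ k) = (Fam.pullc φ D) ^ k := by
  rw [pullc_def, pullc_def, ← pullback_pow φ (isCartier_moved D hD _) (not_inSupp_moved D _)]
  congr 1
  funext x
  simp only [Pi.mul_apply, Pi.inv_apply, Pi.pow_apply, Fam.const]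
  rw [mul_pow, inv_pow]

/-- In good position `pullc` differs from `pullback` by a principal divisor. -/
theorem pullc_eq_pullback_mul_const (φ : Y ⟶ X) {D : Fam X} (hD : Fam.IsCartier D)
    (hξ : ¬ D.InSupp (φ.base (genericPoint Y))) :
    Fam.pullc φ D = Fam.pullback φ D * Fam.const (toUnit (pullFun φ
      (((D (φ.base (genericPoint Y)))⁻¹ : (X.functionField)ˣ) : X.functionField))) := by
  rw [pullc_def, pullback_mul φ hD (isCartier_inv (isCartier_const _)) hξ]
  · rfl
  · rw [inSupp_inv_iff]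
    exact hξ

theorem pullc_linEquiv_pullback (φ : Y ⟶ X) {D : Fam X} (hD : Fam.IsCartier D)
    (hξ : ¬ D.InSupp (φ.base (genericPoint Y))) :
    Fam.LinEquiv (Fam.pullc φ D) (Fam.pullback φ D) := by
  rw [pullc_eq_pullback_mul_const φ hD hξ]
  exact linEquiv_mul_const _ _

/-- `pullc` respects `Same` up to linear equivalence. -/
theorem pullc_linEquiv_of_same (φ : Y ⟶ X) {D D' : Fam X} (hD : Fam.IsCartier D)
    (h : Fam.Same D D') : Fam.LinEquiv (Fam.pullc φ D) (Fam.pullc φ D') := by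
  have hD' : Fam.IsCartier D' := isCartier_of_same h hD
  -- write `E = D / const (D ξ)`, `E' = D' / const (D' ξ)`; then `E` is `Same` as `E' * const c`
  -- with `c = D' ξ / D ξ` a unit at `ξ`.
  set ξ := φ.base (genericPoint Y) with hξdef
  set c : (X.functionField)ˣ := D' ξ / D ξ with hc
  have hcu : IsUnitAt ξ (c : X.functionField) := same_symm h ξ
  have hE' : Fam.IsCartier (D' * (Fam.const (D' ξ))⁻¹) := isCartier_moved D' hD' _
  have hsame : Fam.Same (D * (Fam.const (D ξ))⁻¹) ((D' * (Fam.const (D' ξ))⁻¹) * Fam.const c) := by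
    have h1 := same_mul h (same_refl ((Fam.const (D ξ))⁻¹ : Fam X))
    have h2 : D' * (Fam.const (D ξ))⁻¹ = (D' * (Fam.const (D' ξ))⁻¹) * Fam.const c := by
      funext x
      simp only [Pi.mul_apply, Pi.inv_apply, Fam.const, hc]
      rw [mul_assoc, inv_mul_eq_div, div_div_cancel_left]
    rwa [h2] at h1
  have hpb := pullback_same φ (isCartier_moved D hD _) (not_inSupp_moved D ξ) hsame
  rw [pullback_mul φ hE' (isCartier_const c) (not_inSupp_moved D' ξ)
    (not_inSupp_const_iff.mpr hcu)] at hpb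
  exact ⟨toUnit (pullFun φ (c : X.functionField)), hpb⟩

/-- `pullc` respects linear equivalence. -/
theorem pullc_linEquiv (φ : Y ⟶ X) {D D' : Fam X} (hD : Fam.IsCartier D)
    (hD' : Fam.IsCartier D') (h : Fam.LinEquiv D D') :
    Fam.LinEquiv (Fam.pullc φ D) (Fam.pullc φ D') := by
  obtain ⟨f, hf⟩ := h
  have h1 := pullc_linEquiv_of_same φ hD hf
  rw [pullc_mul φ hD' (isCartier_const f), pullc_const, mul_one] at h1
  exact h1

/-- Functoriality of the class-level pullback (an equality of families). -/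
theorem pullc_comp (ψ : Z ⟶ Y) (φ : Y ⟶ X) {D : Fam X} (hD : Fam.IsCartier D) :
    Fam.pullc (ψ ≫ φ) D = Fam.pullc ψ (Fam.pullc φ D) := by
  set ζ := φ.base (ψ.base (genericPoint Z)) with hζdef
  set ξ := φ.base (genericPoint Y) with hξdef
  -- `F = D / const (D ζ)` is in good position for `ψ ≫ φ` and for `φ`
  set F : Fam X := D * (Fam.const (D ζ))⁻¹ with hF
  have hFc : Fam.IsCartier F := isCartier_moved D hD _
  have hFζ : ¬ F.InSupp ζ := not_inSupp_moved D ζ
  have hFξ : ¬ F.InSupp ξ :=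
    not_inSupp_of_specializes hFc (map_genericPoint_specializes φ _) hFζ
  have h1 : Fam.pullc (ψ ≫ φ) D = Fam.pullback ψ (Fam.pullback φ F) := by
    rw [← pullback_comp ψ φ hFc hFζ]; rfl
  rw [h1, pullc_def ψ]
  congr 1
  -- `pullc φ D / const (pullc φ D (ψ η_Z)) = pullback φ F`
  have hE : Fam.IsCartier (D * (Fam.const (D ξ))⁻¹) := isCartier_moved D hD _
  have hEξ : ¬ (D * (Fam.const (D ξ))⁻¹).InSupp ξ := not_inSupp_moved D ξ
  have hDζ : IsUnitAt ξ (((D ζ / D ξ : (X.functionField)ˣ)) : X.functionField) := by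
    have := isUnitAt_map_genericPoint φ hE hEξ (ψ.base (genericPoint Z))
    rwa [Pi.mul_apply, Pi.inv_apply] at this
  have hc : Fam.IsCartier (Fam.const (D ζ / D ξ) : Fam X) := isCartier_const _
  have hF' : F = (D * (Fam.const (D ξ))⁻¹) * (Fam.const (D ζ / D ξ))⁻¹ := by
    funext x
    simp only [hF, Pi.mul_apply, Pi.inv_apply, Fam.const]
    rw [mul_assoc, ← mul_inv, mul_div_cancel]
  rw [hF', pullback_mul φ hE (isCartier_inv hc) hEξ
    (by rw [inSupp_inv_iff]; exact not_inSupp_const_iff.mpr hDζ),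
    pullback_inv φ hc (not_inSupp_const_iff.mpr hDζ)]
  rfl

/-- The class-level pullback along a constant map is trivial. -/
theorem pullc_of_const_map (φ : Y ⟶ X) (x₀ : X) (hφ : ∀ y : Y, φ.base y = x₀) (D : Fam X) :
    Fam.pullc φ D = 1 := by
  rw [pullc_def]
  funext y
  rw [pullback_apply, Pi.mul_apply, Pi.inv_apply, hφ y, hφ (genericPoint Y)]
  show toUnit (pullFun φ (((D x₀ * (D x₀)⁻¹ : (X.functionField)ˣ)) : X.functionField)) = 1
  rw [mul_inv_cancel, Units.val_one, pullFun_one, toUnit_one]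

end

end Fermat.Agent.S26.DIV.H2384
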